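/-
S19lib / F / LBound  (helper2)  — Project FF, block FF-F.

`K` algebraic over `ℚ`, `A` a valuation subring of `K` whose maximal ideal contains the prime `l`.
Then every element of `K` is carried into `A` by a power of `l`:

  `exists_pow_mul_mem : ∀ a : K, ∃ n, l ^ n * a ∈ A`.

(Proof: an integer multiple `m a` is integral over `ℤ`, hence lies in `A`; the prime-to-`l` part of `m`
is a unit of `A`.)
-/
import Mathlib

set_option autoImplicit false
set_option linter.unusedSectionVars false

namespace Fermat.Agent.S19lib.F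

variable {K : Type*} [Field K] [CharZero K]

/-- integers prime to `l` are units of `A` when `l ∈ 𝔪_A` -/
theorem inv_intCast_mem (A : ValuationSubring K) {l : ℕ} (hl : l.Prime)
    (hA : ((l : ℕ) : K) ∈ A.nonunits) {m : ℤ} (hm : ¬ (l : ℤ) ∣ m) : ((m : ℤ) : K)⁻¹ ∈ A := by
  have hcop : IsCoprime m (l : ℤ) := by
    have h1 : IsCoprime (l : ℤ) m :=
      (Prime.coprime_iff_not_dvd (Nat.prime_iff_prime_int.mp hl)).2 hm
    exact h1.symm
  obtain ⟨u, w, huw⟩ := hcop
  have hK : ((u : ℤ) : K) * m = 1 - w * l := by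
    have : ((u * m + w * l : ℤ) : K) = 1 := by rw [huw]; norm_num
    push_cast at this
    linear_combination this
  have hwl : A.valuation ((w : K) * (l : K)) < 1 := by
    rw [map_mul]
    have h1 : A.valuation (w : K) ≤ 1 := (A.valuation_le_one_iff _).2 (intCast_mem A w)
    have h2 : A.valuation ((l : ℕ) : K) < 1 := (A.mem_nonunits_iff).1 hA
    calc A.valuation (w : K) * A.valuation ((l : ℕ) : K) ≤ 1 * A.valuation ((l : ℕ) : K) :=
          mul_le_mul_left h1 _
      _ = A.valuation ((l : ℕ) : K) := one_mul _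
      _ < 1 := h2
  have hone : A.valuation (((u : ℤ) : K) * m) = 1 := by
    rw [hK]
    exact A.valuation.map_one_sub_of_lt hwl
  have hu : A.valuation (u : K) ≤ 1 := (A.valuation_le_one_iff _).2 (intCast_mem A u)
  have hm1 : A.valuation (m : K) ≤ 1 := (A.valuation_le_one_iff _).2 (intCast_mem A m)
  rw [map_mul] at hone
  have hm2 : A.valuation (m : K) = 1 := by
    refine le_antisymm hm1 ?_
    calc (1 : A.ValueGroup) = A.valuation (u : K) * A.valuation (m : K) := hone.symm
      _ ≤ 1 * A.valuation (m : K) := mul_le_mul_left hu _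
      _ = A.valuation (m : K) := one_mul _
  rw [← A.valuation_le_one_iff, map_inv₀, hm2, inv_one]

/-- **`l`-adic boundedness**: every element of `K` is carried into `A` by a power of `l` -/
theorem exists_pow_mul_mem [Algebra.IsAlgebraic ℚ K] (A : ValuationSubring K) {l : ℕ}
    (hl : l.Prime) (hA : ((l : ℕ) : K) ∈ A.nonunits) (a : K) :
    ∃ n : ℕ, ((l : ℕ) : K) ^ n * a ∈ A := by
  have halg : IsAlgebraic ℤ a :=
    (IsFractionRing.isAlgebraic_iff ℤ ℚ K).2 (Algebra.IsAlgebraic.isAlgebraic a)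
  obtain ⟨y, hy0, hy⟩ := halg.exists_integral_multiple
  have hyA : ((y : ℤ) : K) * a ∈ A := by
    have h1 : IsIntegral A (y • a) := hy.tower_top
    obtain ⟨z, hz⟩ := IsIntegrallyClosed.isIntegral_iff.1 h1
    have : (y : K) * a = y • a := by rw [zsmul_eq_mul]
    rw [this, ← hz]
    exact z.2
  obtain ⟨e, n', hn', hyn⟩ :=
    Nat.exists_eq_pow_mul_and_not_dvd (Int.natAbs_ne_zero.mpr hy0) l hl.ne_one
  refine ⟨e, ?_⟩
  -- `y = ± l^e n'`
  have hdvd : ¬ (l : ℤ) ∣ (n' : ℤ) := by
    intro h
    exact hn' (Int.natCast_dvd_natCast.mp h)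
  have hinv := inv_intCast_mem A hl hA hdvd
  have hn'0 : ((n' : ℤ) : K) ≠ 0 := by
    intro h
    have h0 : n' = 0 := by exact_mod_cast h
    exact hn' (h0 ▸ dvd_zero l)
  have habs : ((y.natAbs : ℕ) : K) = (l : K) ^ e * ((n' : ℤ) : K) := by
    rw [hyn]
    push_cast
    ring
  rcases Int.natAbs_eq y with h | h
  · have hyK : ((y : ℤ) : K) = (l : K) ^ e * ((n' : ℤ) : K) := by
      rw [← habs]
      have h' := congrArg (fun z : ℤ => (z : K)) h
      simpa using h'
    have : ((l : ℕ) : K) ^ e * a = ((n' : ℤ) : K)⁻¹ * ((y : K) * a) := by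
      rw [hyK]
      field_simp
    rw [this]
    exact A.mul_mem _ _ hinv hyA
  · have hyK : ((y : ℤ) : K) = -((l : K) ^ e * ((n' : ℤ) : K)) := by
      rw [← habs]
      have h' := congrArg (fun z : ℤ => (z : K)) h
      simpa using h'
    have : ((l : ℕ) : K) ^ e * a = -(((n' : ℤ) : K)⁻¹ * ((y : K) * a)) := by
      rw [hyK]
      field_simp
    rw [this]
    exact A.neg_mem _ (A.mul_mem _ _ hinv hyA)

end Fermat.Agent.S19lib.F
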