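/-
S19lib / F / Setup  (helper2)  — Project FF, block FF-F (pure algebra).

`K` a field with a valuation subring `A`, `G` a group acting on `K` by field automorphisms
preserving `A` (`K = ℚ̄`, `G` = an inertia group).  `A0 = fixedRing A G = A ∩ K^G`.

* `fixedRing A G : Subring K`;
* evaluation of polynomials with coefficients in `A0` at points of `K^ι`: values in `A`
  (`aeval_mem`), equivariance (`smul_aeval`), Lipschitz property modulo `d • A` (`aeval_sub_mem`);
* `coeffSubring S ι`: polynomials over `K` with coefficients in a subring `S`, and the descent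
  `exists_typed_of_coeff_mem` to `MvPolynomial ι ↥S`.
-/
import Mathlib

set_option autoImplicit false

noncomputable section

namespace Fermat.Agent.S19lib.F

open MvPolynomial

variable {K : Type*} [Field K] (A : ValuationSubring K)
variable (G : Type*) [Group G] [MulSemiringAction G K]

/-- `A0 = A ∩ K^G` -/
def fixedRing : Subring K where
  carrier := {a | a ∈ A ∧ ∀ σ : G, σ • a = a}
  mul_mem' := fun ha hb => ⟨A.mul_mem _ _ ha.1 hb.1, fun σ => by rw [smul_mul', ha.2, hb.2]⟩
  one_mem' := ⟨A.one_mem, fun σ => smul_one σ⟩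
  add_mem' := fun ha hb => ⟨A.add_mem _ _ ha.1 hb.1, fun σ => by rw [smul_add, ha.2, hb.2]⟩
  zero_mem' := ⟨A.zero_mem, fun σ => smul_zero σ⟩
  neg_mem' := fun ha => ⟨A.neg_mem _ ha.1, fun σ => by rw [smul_neg, ha.2]⟩

variable {A G}

theorem mem_fixedRing {a : K} : a ∈ fixedRing A G ↔ a ∈ A ∧ ∀ σ : G, σ • a = a := Iff.rfl

theorem coe_mem_A (a : fixedRing A G) : (a : K) ∈ A := a.2.1

theorem smul_coe (σ : G) (a : fixedRing A G) : σ • (a : K) = a := a.2.2 σ

/-- `x ∈ d • A` -/
def DvdA (A : ValuationSubring K) (d x : K) : Prop := ∃ a ∈ A, x = d * a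

theorem DvdA.zero (d : K) : DvdA A d 0 := ⟨0, A.zero_mem, by rw [mul_zero]⟩

theorem DvdA.add {d x y : K} (hx : DvdA A d x) (hy : DvdA A d y) : DvdA A d (x + y) := by
  obtain ⟨a, ha, rfl⟩ := hx
  obtain ⟨b, hb, rfl⟩ := hy
  exact ⟨a + b, A.add_mem _ _ ha hb, by ring⟩

theorem DvdA.neg {d x : K} (hx : DvdA A d x) : DvdA A d (-x) := by
  obtain ⟨a, ha, rfl⟩ := hx
  exact ⟨-a, A.neg_mem _ ha, by ring⟩

theorem DvdA.sub {d x y : K} (hx : DvdA A d x) (hy : DvdA A d y) : DvdA A d (x - y) := by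
  rw [sub_eq_add_neg]
  exact hx.add hy.neg

theorem DvdA.mul_left {d x : K} (hx : DvdA A d x) {b : K} (hb : b ∈ A) : DvdA A d (b * x) := by
  obtain ⟨a, ha, rfl⟩ := hx
  exact ⟨b * a, A.mul_mem _ _ hb ha, by ring⟩

theorem DvdA.sum {ι : Type*} {d : K} (s : Finset ι) (f : ι → K) (h : ∀ i ∈ s, DvdA A d (f i)) :
    DvdA A d (∑ i ∈ s, f i) := by
  classical
  induction s using Finset.induction_on with
  | empty => rw [Finset.sum_empty]; exact DvdA.zero d
  | insert a s ha ih =>
    rw [Finset.sum_insert ha]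
    exact (h a (Finset.mem_insert_self a s)).add
      (ih fun i hi => h i (Finset.mem_insert_of_mem hi))

theorem DvdA.smul {d x : K} (hx : DvdA A d x) (σ : G) (hA : ∀ (σ : G) (a : K), a ∈ A → σ • a ∈ A)
    (hd : σ • d = d) : DvdA A d (σ • x) := by
  obtain ⟨a, ha, rfl⟩ := hx
  exact ⟨σ • a, hA σ a ha, by rw [smul_mul', hd]⟩

theorem dvdA_of_mem {d x : K} (hd : d ≠ 0) (h : x / d ∈ A) : DvdA A d x :=
  ⟨x / d, h, by field_simp⟩

theorem DvdA.div_mem {d x : K} (hd : d ≠ 0) (h : DvdA A d x) : x / d ∈ A := by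
  obtain ⟨a, ha, rfl⟩ := h
  rwa [mul_div_cancel_left₀ _ hd]

/-! ### evaluation of polynomials with coefficients in `A0` -/

section Eval

variable {ι : Type*}

/-- values at integral points are integral -/
theorem aeval_mem (P : MvPolynomial ι (fixedRing A G)) {v : ι → K} (hv : ∀ i, v i ∈ A) :
    aeval v P ∈ A := by
  have h : aeval v P = A.subtype (eval₂ (Subring.inclusion (fun a (ha : a ∈ fixedRing A G) => ha.1 :
      fixedRing A G ≤ A.toSubring)) (fun i => (⟨v i, hv i⟩ : A)) P) := by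
    rw [aeval_def, eval₂_comp_left]
    rfl
  rw [h]
  exact Subtype.property _

/-- equivariance of the evaluation -/
theorem smul_aeval (σ : G) (P : MvPolynomial ι (fixedRing A G)) (v : ι → K) :
    σ • aeval v P = aeval (fun i => σ • v i) P := by
  have h := eval₂_comp_left (MulSemiringAction.toRingHom G K σ) (algebraMap (fixedRing A G) K) v P
  have h2 : (MulSemiringAction.toRingHom G K σ).comp (algebraMap (fixedRing A G) K) =
      algebraMap (fixedRing A G) K := RingHom.ext fun a => smul_coe σ a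
  rw [h2] at h
  exact h

/-- **Lipschitz property**: congruent integral points have congruent values -/
theorem aeval_sub_mem (P : MvPolynomial ι (fixedRing A G)) {d : K} (hd : d ∈ A) {v w : ι → K}
    (hv : ∀ i, v i ∈ A) (hw : ∀ i, w i ∈ A) (hvw : ∀ i, DvdA A d (v i - w i)) :
    DvdA A d (aeval v P - aeval w P) := by
  let j : fixedRing A G →+* A :=
    Subring.inclusion (fun a (ha : a ∈ fixedRing A G) => ha.1 : fixedRing A G ≤ A.toSubring)
  let I : Ideal A := Ideal.span {(⟨d, hd⟩ : A)}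
  let v' : ι → A := fun i => ⟨v i, hv i⟩
  let w' : ι → A := fun i => ⟨w i, hw i⟩
  have e1 : aeval v P = A.subtype (eval₂ j v' P) := by
    rw [aeval_def, eval₂_comp_left]; rfl
  have e2 : aeval w P = A.subtype (eval₂ j w' P) := by
    rw [aeval_def, eval₂_comp_left]; rfl
  have hmk : (Ideal.Quotient.mk I) ∘ v' = (Ideal.Quotient.mk I) ∘ w' := by
    funext i
    apply Ideal.Quotient.eq.mpr
    obtain ⟨a, ha, hda⟩ := hvw i
    refine Ideal.mem_span_singleton'.mpr ⟨⟨a, ha⟩, ?_⟩
    apply Subtype.ext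
    show a * d = v i - w i
    rw [hda, mul_comm]
  have h3 : Ideal.Quotient.mk I (eval₂ j v' P) = Ideal.Quotient.mk I (eval₂ j w' P) := by
    rw [eval₂_comp_left (Ideal.Quotient.mk I) j v' P, eval₂_comp_left (Ideal.Quotient.mk I) j w' P,
      hmk]
  obtain ⟨a, ha⟩ := Ideal.mem_span_singleton'.mp (Ideal.Quotient.eq.mp h3)
  refine ⟨a.1, a.2, ?_⟩
  rw [e1, e2]
  have h4 : (a : K) * d = ((eval₂ j v' P : A) : K) - ((eval₂ j w' P : A) : K) :=
    congrArg (fun z : A => (z : K)) ha
  show ((eval₂ j v' P : A) : K) - ((eval₂ j w' P : A) : K) = d * a.1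
  rw [mul_comm]
  exact h4.symm

end Eval

/-! ### polynomials over `K` with coefficients in a subring -/

section Coeff

variable {ι : Type*} (S : Subring K)

/-- polynomials with coefficients in `S` -/
def coeffSubring (ι : Type*) : Subring (MvPolynomial ι K) := (MvPolynomial.map (σ := ι) S.subtype).range

variable {S}

theorem mem_coeffSubring_iff {P : MvPolynomial ι K} :
    P ∈ coeffSubring S ι ↔ ∀ m, P.coeff m ∈ S := by
  classical
  constructor
  · rintro ⟨Q, rfl⟩ m
    rw [coeff_map]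
    exact (Q.coeff m).2
  · intro h
    have : P ∈ Set.range (MvPolynomial.map (σ := ι) S.subtype) := by
      rw [mem_range_map_iff_coeffs_subset]
      intro a ha
      obtain ⟨m, -, rfl⟩ := mem_coeffs_iff.mp ha
      exact ⟨⟨P.coeff m, h m⟩, rfl⟩
    exact this

theorem C_mem_coeffSubring {a : K} (ha : a ∈ S) : (C a : MvPolynomial ι K) ∈ coeffSubring S ι :=
  ⟨C ⟨a, ha⟩, by rw [map_C]; rfl⟩

theorem X_mem_coeffSubring (i : ι) : (X i : MvPolynomial ι K) ∈ coeffSubring S ι :=
  ⟨X i, by rw [map_X]⟩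

theorem exists_typed_of_mem {P : MvPolynomial ι K} (h : P ∈ coeffSubring S ι) :
    ∃ Q : MvPolynomial ι S, MvPolynomial.map S.subtype Q = P := h

theorem aeval_typed (Q : MvPolynomial ι S) (v : ι → K) :
    aeval v Q = eval v (MvPolynomial.map S.subtype Q) := by
  rw [aeval_def, eval_map]
  rfl

end Coeff

end Fermat.Agent.S19lib.F
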