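/-
S19lib / F / RankOne  (helper2)  — Project FF, block FF-F.

`K` algebraic over `ℚ`, `A` a valuation subring of `K` with `l ∈ 𝔪_A`.  **`A` has rank one**:

* `exists_pow_eq_l_mul : a ∈ 𝔪_A → ∃ n, a ^ n ∈ l • A`
  (a primitive integer polynomial killing `a`; `j` = first coefficient prime to `l`; then
  `a^j (c_j + a r) ∈ l A` and `c_j + a r` is a unit);
* `exists_pow_dvdA : a ∈ 𝔪_A → d ≠ 0 → ∃ n, a ^ n ∈ d • A`;
* `exists_pow_le : a ∈ 𝔪_A → d ≠ 0 → ∃ n, v(a) ^ n ≤ v(d)`.
-/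
import Mathlib
import Fermat.Agent.S19lib.F.Setup
import Fermat.Agent.S19lib.F.LBound

set_option autoImplicit false
set_option linter.unusedSectionVars false

namespace Fermat.Agent.S19lib.F

open Polynomial

variable {K : Type*} [Field K] [CharZero K] [Algebra.IsAlgebraic ℚ K]

/-- a power of every element of the maximal ideal is divisible by `l` -/
theorem exists_pow_eq_l_mul (A : ValuationSubring K) {l : ℕ} (hl : l.Prime)
    (hA : ((l : ℕ) : K) ∈ A.nonunits) {a : K} (ha : a ∈ A.nonunits) :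
    ∃ n : ℕ, DvdA A ((l : ℕ) : K) (a ^ n) := by
  have haA : a ∈ A := (A.valuation_le_one_iff _).1 (le_of_lt ((A.mem_nonunits_iff).1 ha))
  have halg : IsAlgebraic ℤ a :=
    (IsFractionRing.isAlgebraic_iff ℤ ℚ K).2 (Algebra.IsAlgebraic.isAlgebraic a)
  obtain ⟨p, hp0, hpa⟩ := halg
  have hqa : aeval a p.primPart = 0 := aeval_primPart_eq_zero hp0 hpa
  have hprim : p.primPart.IsPrimitive := p.isPrimitive_primPart
  generalize p.primPart = q at hqa hprim
  have hex : ∃ j, ¬ (l : ℤ) ∣ q.coeff j := by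
    by_contra hcon
    have hcon' : ∀ j, (l : ℤ) ∣ q.coeff j := fun j => by_contra fun h => hcon ⟨j, h⟩
    have h1 : C (l : ℤ) ∣ q := (C_dvd_iff_dvd_coeff _ _).2 hcon'
    have hu : IsUnit (l : ℤ) := hprim _ h1
    rcases Int.isUnit_iff.1 hu with h | h
    · have : l = 1 := by exact_mod_cast h
      exact hl.ne_one this
    · have : (0 : ℤ) ≤ (l : ℤ) := Int.natCast_nonneg l
      omega
  classical
  let j := Nat.find hex
  have hj : ¬ (l : ℤ) ∣ q.coeff j := Nat.find_spec hex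
  have hlt : ∀ i < j, (l : ℤ) ∣ q.coeff i := fun i hi => by
    by_contra h
    exact Nat.find_min hex hi h
  set N := q.natDegree with hN
  have hjN : j ≤ N := by
    by_contra h
    exact hj (by rw [coeff_eq_zero_of_natDegree_lt (not_le.1 h)]; exact dvd_zero _)
  let f : ℕ → K := fun i => ((q.coeff i : ℤ) : K) * a ^ i
  have hsum : ∑ i ∈ Finset.range (N + 1), f i = 0 := by
    rw [← hqa, aeval_eq_sum_range]
    refine Finset.sum_congr rfl fun i _ => ?_
    show ((q.coeff i : ℤ) : K) * a ^ i = q.coeff i • a ^ i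
    rw [zsmul_eq_mul]
  have hsplit : ∑ i ∈ Finset.range j, f i + (f j + ∑ i ∈ Finset.Ico (j + 1) (N + 1), f i) = 0 := by
    rw [← Finset.sum_eq_sum_Ico_succ_bot (Nat.lt_succ_of_le hjN) f,
      Finset.sum_range_add_sum_Ico f (Nat.le_succ_of_le hjN), hsum]
  have hS1 : DvdA A ((l : ℕ) : K) (∑ i ∈ Finset.range j, f i) := by
    refine DvdA.sum _ _ fun i hi => ?_
    obtain ⟨c, hc⟩ := hlt i (Finset.mem_range.1 hi)
    refine ⟨(c : K) * a ^ i, A.mul_mem _ _ (intCast_mem A c) (A.pow_mem haA i), ?_⟩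
    show ((q.coeff i : ℤ) : K) * a ^ i = _
    rw [hc]
    push_cast
    ring
  have hS3 : DvdA A (a ^ (j + 1)) (∑ i ∈ Finset.Ico (j + 1) (N + 1), f i) := by
    refine DvdA.sum _ _ fun i hi => ?_
    have hji : j + 1 ≤ i := (Finset.mem_Ico.1 hi).1
    refine ⟨((q.coeff i : ℤ) : K) * a ^ (i - (j + 1)),
      A.mul_mem _ _ (intCast_mem A _) (A.pow_mem haA _), ?_⟩
    show ((q.coeff i : ℤ) : K) * a ^ i = _
    have : a ^ i = a ^ (j + 1) * a ^ (i - (j + 1)) := by
      rw [← pow_add, Nat.add_sub_cancel' hji]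
    rw [this]
    ring
  obtain ⟨r1, hr1, h1⟩ := hS1
  obtain ⟨r3, hr3, h3⟩ := hS3
  rw [h1, h3] at hsplit
  -- `a^j (c_j + a r3) = - l r1`
  set cj : K := ((q.coeff j : ℤ) : K) with hcj
  have hcjinv : cj⁻¹ ∈ A := inv_intCast_mem A hl hA hj
  have hcjA : cj ∈ A := intCast_mem A _
  have hcj0 : cj ≠ 0 := by
    intro h0
    have : (q.coeff j : ℤ) = 0 := Int.cast_eq_zero.1 h0
    exact hj (this ▸ dvd_zero _)
  have hvcj : A.valuation cj = 1 := by
    refine le_antisymm ((A.valuation_le_one_iff _).2 hcjA) ?_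
    have h1 : A.valuation cj * A.valuation cj⁻¹ = 1 := by
      rw [← map_mul, mul_inv_cancel₀ hcj0, map_one]
    calc (1 : A.ValueGroup) = A.valuation cj * A.valuation cj⁻¹ := h1.symm
      _ ≤ A.valuation cj * 1 := mul_le_mul_right ((A.valuation_le_one_iff _).2 hcjinv) _
      _ = A.valuation cj := mul_one _
  have hvar3 : A.valuation (a * r3) < 1 := by
    rw [map_mul]
    calc A.valuation a * A.valuation r3 ≤ A.valuation a * 1 :=
          mul_le_mul_right ((A.valuation_le_one_iff _).2 hr3) _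
      _ = A.valuation a := mul_one _
      _ < 1 := (A.mem_nonunits_iff).1 ha
  have hvu : A.valuation (cj + a * r3) = 1 := by
    rw [A.valuation.map_add_eq_of_lt_left (by rw [hvcj]; exact hvar3), hvcj]
  have hu0 : cj + a * r3 ≠ 0 := by
    intro h0
    rw [h0, map_zero] at hvu
    exact zero_ne_one hvu
  have huinv : (cj + a * r3)⁻¹ ∈ A := by
    rw [← A.valuation_le_one_iff, map_inv₀, hvu, inv_one]
  refine ⟨j, -(r1 * (cj + a * r3)⁻¹), A.neg_mem _ (A.mul_mem _ _ hr1 huinv), ?_⟩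
  have hkey : a ^ j * (cj + a * r3) = -((l : K) * r1) := by
    have hfj : f j = cj * a ^ j := rfl
    rw [hfj] at hsplit
    linear_combination hsplit
  field_simp
  linear_combination hkey

/-- **rank one**: a power of every element of the maximal ideal is divisible by any `d ≠ 0` -/
theorem exists_pow_dvdA (A : ValuationSubring K) {l : ℕ} (hl : l.Prime)
    (hA : ((l : ℕ) : K) ∈ A.nonunits) {a : K} (ha : a ∈ A.nonunits) {d : K} (hd : d ≠ 0) :
    ∃ n : ℕ, DvdA A d (a ^ n) := by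
  obtain ⟨n, r, hr, hn⟩ := exists_pow_eq_l_mul A hl hA ha
  obtain ⟨k, hk⟩ := exists_pow_mul_mem A hl hA d⁻¹
  refine ⟨n * k, ((l : K) ^ k * d⁻¹) * r ^ k, A.mul_mem _ _ hk (A.pow_mem hr k), ?_⟩
  rw [pow_mul, hn, mul_pow]
  field_simp

/-- rank one, valuation form -/
theorem exists_pow_le (A : ValuationSubring K) {l : ℕ} (hl : l.Prime)
    (hA : ((l : ℕ) : K) ∈ A.nonunits) {a : K} (ha : a ∈ A.nonunits) {d : K} (hd : d ≠ 0) :
    ∃ n : ℕ, A.valuation a ^ n ≤ A.valuation d := by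
  obtain ⟨n, r, hr, hn⟩ := exists_pow_dvdA A hl hA ha hd
  refine ⟨n, ?_⟩
  rw [← map_pow, hn, map_mul]
  calc A.valuation d * A.valuation r ≤ A.valuation d * 1 :=
        mul_le_mul_right ((A.valuation_le_one_iff _).2 hr) _
    _ = A.valuation d := mul_one _

end Fermat.Agent.S19lib.F
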