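/-
S19lib / F / Order  (helper2)  — Project FF, block FF-F.

The order of "`A0`-analytic" functions on a finite `G`-set `X` (`= Γ = J[l^k]`) partitioned into
fibres `Γ_c` (`c : X → C`) with coordinates `τ : X → K^g`:

  `order T = {φ : X → K | φ G-equivariant, ∀ c₀ ∃ P ∈ A0[t₁,…,t_g], φ = P ∘ τ on Γ_{c₀}}`.

It is an `A0`-subalgebra of `X → K`, consists of `A`-valued functions, contains the
"indicator × monomial" functions, and evaluation at a `G`-fixed point lands in `A0`.
-/
import Mathlib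
import Fermat.Agent.S19lib.F.Setup

set_option autoImplicit false

noncomputable section

namespace Fermat.Agent.S19lib.F

open MvPolynomial

variable {K : Type*} [Field K] (A : ValuationSubring K)
variable (G : Type*) [Group G] [MulSemiringAction G K]

/-- fibres and coordinates on a `G`-set -/
structure Coords (X C : Type*) [MulAction G X] (g : ℕ) where
  /-- the fibre map -/
  c : X → C
  c_smul : ∀ (σ : G) (x : X), c (σ • x) = c x
  /-- the coordinates -/
  τ : X → Fin g → K
  τ_smul : ∀ (σ : G) (x : X) (i : Fin g), τ (σ • x) i = σ • τ x i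
  τ_mem : ∀ x i, τ x i ∈ A
  τ_inj : ∀ x y, c x = c y → τ x = τ y → x = y

variable {A G}
variable {X C : Type*} [MulAction G X] {g : ℕ}

/-- `G`-equivariant functions -/
def IsEquivariant (G : Type*) [Group G] [MulSemiringAction G K] {Y : Type*} [MulAction G Y]
    (φ : Y → K) : Prop := ∀ (σ : G) (y : Y), φ (σ • y) = σ • φ y

/-- `A`-valued functions -/
def IsIntegralValued (A : ValuationSubring K) {Y : Type*} (φ : Y → K) : Prop := ∀ y, φ y ∈ A

namespace Coords

variable (T : Coords A G X C g)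

/-- `φ` is given on the fibre `c₀` by the polynomial `P` -/
def RepOn (φ : X → K) (c₀ : C) (P : MvPolynomial (Fin g) (fixedRing A G)) : Prop :=
  ∀ x, T.c x = c₀ → φ x = aeval (T.τ x) P

/-- **the order of `A0`-analytic functions** -/
def order : Subalgebra (fixedRing A G) (X → K) where
  carrier := {φ | IsEquivariant G φ ∧ ∀ c₀ : C, ∃ P, T.RepOn φ c₀ P}
  mul_mem' := by
    rintro φ ψ ⟨hφ, hφP⟩ ⟨hψ, hψP⟩
    refine ⟨fun σ x => ?_, fun c₀ => ?_⟩
    · show φ (σ • x) * ψ (σ • x) = σ • (φ x * ψ x)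
      rw [hφ, hψ, smul_mul']
    · obtain ⟨P, hP⟩ := hφP c₀
      obtain ⟨Q, hQ⟩ := hψP c₀
      refine ⟨P * Q, fun x hx => ?_⟩
      show φ x * ψ x = _
      rw [hP x hx, hQ x hx, map_mul]
  add_mem' := by
    rintro φ ψ ⟨hφ, hφP⟩ ⟨hψ, hψP⟩
    refine ⟨fun σ x => ?_, fun c₀ => ?_⟩
    · show φ (σ • x) + ψ (σ • x) = σ • (φ x + ψ x)
      rw [hφ, hψ, smul_add]
    · obtain ⟨P, hP⟩ := hφP c₀
      obtain ⟨Q, hQ⟩ := hψP c₀
      refine ⟨P + Q, fun x hx => ?_⟩
      show φ x + ψ x = _
      rw [hP x hx, hQ x hx, map_add]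
  algebraMap_mem' := by
    intro r
    refine ⟨fun σ x => ?_, fun c₀ => ⟨MvPolynomial.C r, fun x _ => ?_⟩⟩
    · show (r : K) = σ • (r : K)
      rw [smul_coe]
    · show (r : K) = _
      rw [aeval_C]
      rfl

theorem mem_order {φ : X → K} :
    φ ∈ T.order ↔ IsEquivariant G φ ∧ ∀ c₀ : C, ∃ P, T.RepOn φ c₀ P := Iff.rfl

theorem isEquivariant_of_mem {φ : X → K} (h : φ ∈ T.order) : IsEquivariant G φ := h.1

/-- functions of the order are `A`-valued -/
theorem isIntegralValued_of_mem {φ : X → K} (h : φ ∈ T.order) : IsIntegralValued A φ := by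
  intro x
  obtain ⟨P, hP⟩ := h.2 (T.c x)
  rw [hP x rfl]
  exact aeval_mem P (T.τ_mem x)

/-- the value of a function of the order at a `G`-fixed point lies in `A0` -/
theorem apply_mem_fixedRing {φ : X → K} (h : φ ∈ T.order) {x : X} (hx : ∀ σ : G, σ • x = x) :
    φ x ∈ fixedRing A G :=
  ⟨T.isIntegralValued_of_mem h x, fun σ => by rw [← h.1 σ x, hx σ]⟩

open Classical in
/-- indicator of a fibre times a polynomial in the coordinates -/
def indPoly (c₀ : C) (P : MvPolynomial (Fin g) (fixedRing A G)) : X → K :=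
  fun x => if T.c x = c₀ then aeval (T.τ x) P else 0

theorem indPoly_mem (c₀ : C) (P : MvPolynomial (Fin g) (fixedRing A G)) :
    T.indPoly c₀ P ∈ T.order := by
  classical
  refine ⟨fun σ x => ?_, fun c₁ => ?_⟩
  · unfold indPoly
    rw [T.c_smul]
    split_ifs with h
    · have h1 : T.τ (σ • x) = fun i => σ • T.τ x i := funext (T.τ_smul σ x)
      rw [smul_aeval, h1]
    · rw [smul_zero]
  · by_cases h : c₁ = c₀
    · refine ⟨P, fun x hx => ?_⟩
      unfold indPoly
      rw [if_pos (hx.trans h)]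
    · refine ⟨0, fun x hx => ?_⟩
      unfold indPoly
      rw [if_neg (fun h' => h (hx.symm.trans h')), map_zero]

theorem indPoly_apply_of_eq {c₀ : C} (P : MvPolynomial (Fin g) (fixedRing A G)) {x : X}
    (hx : T.c x = c₀) : T.indPoly c₀ P x = aeval (T.τ x) P := by
  classical
  unfold indPoly
  rw [if_pos hx]

theorem indPoly_apply_of_ne {c₀ : C} (P : MvPolynomial (Fin g) (fixedRing A G)) {x : X}
    (hx : T.c x ≠ c₀) : T.indPoly c₀ P x = 0 := by
  classical
  unfold indPoly
  rw [if_neg hx]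

end Coords

end Fermat.Agent.S19lib.F
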