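/-
S19lib / F / Interp  (helper2)  — Project FF, block FF-F.

Choice-free Lagrange interpolation on the fibres and the **Cramer element** `D ∈ A0`:
for `x` in a fibre, `N x ∈ A[t]` vanishes at the other points of the fibre and takes the value
`Dx x` (a product of coordinate differences) at `x`; `σ (N x) = N (σ x)`.  Hence, for every
`G`-equivariant `A`-valued `φ`, the polynomial `Σ_x φ(x) (D / Dx x) N x` has coefficients in `A0` and
represents `D φ` on the fibre: **`D • φ ∈ order T`** (uniform fullness).
-/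
import Mathlib
import Fermat.Agent.S19lib.F.Order

set_option autoImplicit false

noncomputable section

namespace Fermat.Agent.S19lib.F

open MvPolynomial

variable {K : Type*} [Field K] {A : ValuationSubring K}
variable {G : Type*} [Group G] [MulSemiringAction G K]
variable {X C : Type*} [MulAction G X] {g : ℕ}

/-- the coefficientwise action on polynomials -/
def polySmul {ι : Type*} (σ : G) : MvPolynomial ι K →+* MvPolynomial ι K :=
  MvPolynomial.map (MulSemiringAction.toRingHom G K σ)

@[simp] theorem polySmul_C {ι : Type*} (σ : G) (a : K) :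
    polySmul (ι := ι) σ (MvPolynomial.C a) = MvPolynomial.C (σ • a) := by
  rw [polySmul, map_C]; rfl

@[simp] theorem polySmul_X {ι : Type*} (σ : G) (i : ι) :
    polySmul σ (MvPolynomial.X i : MvPolynomial ι K) = MvPolynomial.X i := by
  rw [polySmul, map_X]

theorem coeff_polySmul {ι : Type*} (σ : G) (P : MvPolynomial ι K) (m : ι →₀ ℕ) :
    (polySmul σ P).coeff m = σ • P.coeff m := by
  rw [polySmul, coeff_map]; rfl

/-- a polynomial with integral coefficients fixed by the coefficientwise action has coefficients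
in `A0` -/
theorem mem_coeffSubring_fixedRing {ι : Type*} {P : MvPolynomial ι K}
    (hP : P ∈ coeffSubring A.toSubring ι) (hσ : ∀ σ : G, polySmul σ P = P) :
    P ∈ coeffSubring (fixedRing A G) ι := by
  rw [mem_coeffSubring_iff] at hP ⊢
  intro m
  refine ⟨hP m, fun σ => ?_⟩
  rw [← coeff_polySmul, hσ]

namespace Coords

variable (T : Coords A G X C g)

open Classical in
/-- the indices at which the coordinates of `x` and `y` differ -/
def diffSet (x y : X) : Finset (Fin g) := Finset.univ.filter fun i => T.τ x i ≠ T.τ y i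

theorem mem_diffSet {x y : X} {i : Fin g} : i ∈ T.diffSet x y ↔ T.τ x i ≠ T.τ y i := by
  classical
  simp [diffSet]

theorem diffSet_smul (σ : G) (x y : X) : T.diffSet (σ • x) (σ • y) = T.diffSet x y := by
  ext i
  rw [mem_diffSet, mem_diffSet, T.τ_smul, T.τ_smul]
  exact not_congr (MulAction.injective σ).eq_iff

theorem diffSet_nonempty {x y : X} (hc : T.c x = T.c y) (hxy : x ≠ y) :
    (T.diffSet x y).Nonempty := by
  by_contra h
  rw [Finset.not_nonempty_iff_eq_empty] at h
  apply hxy
  refine T.τ_inj x y hc (funext fun i => ?_)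
  by_contra hi
  have : i ∈ T.diffSet x y := T.mem_diffSet.mpr hi
  rw [h] at this
  exact absurd this (Finset.notMem_empty i)

/-- the denominator of the separating polynomial -/
def den (x y : X) : K := ∏ i ∈ T.diffSet x y, (T.τ x i - T.τ y i)

theorem den_ne_zero (x y : X) : T.den x y ≠ 0 :=
  Finset.prod_ne_zero_iff.mpr fun _ hi => sub_ne_zero.mpr (T.mem_diffSet.mp hi)

theorem den_mem (x y : X) : T.den x y ∈ A :=
  Subring.prod_mem A.toSubring fun i _ => sub_mem (T.τ_mem x i) (T.τ_mem y i)

theorem smul_den (σ : G) (x y : X) : σ • T.den x y = T.den (σ • x) (σ • y) := by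
  rw [den, den, Finset.smul_prod', T.diffSet_smul]
  refine Finset.prod_congr rfl fun i _ => ?_
  rw [smul_sub, T.τ_smul, T.τ_smul]

/-- the (integral) separating polynomial: value `den x y` at `x`, `0` at `y` -/
def num (x y : X) : MvPolynomial (Fin g) K :=
  MvPolynomial.C (T.den x y) - ∏ i ∈ T.diffSet x y,
    (MvPolynomial.C (T.τ x i - T.τ y i) - (MvPolynomial.X i - MvPolynomial.C (T.τ y i)))

theorem eval_num_right (x y : X) : eval (T.τ y) (T.num x y) = 0 := by
  rw [num, map_sub, eval_C, map_prod]
  have : ∀ i ∈ T.diffSet x y, eval (T.τ y) (MvPolynomial.C (T.τ x i - T.τ y i) -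
      (MvPolynomial.X i - MvPolynomial.C (T.τ y i))) = T.τ x i - T.τ y i := by
    intro i _
    simp
  rw [Finset.prod_congr rfl this, den, sub_self]

theorem eval_num_left {x y : X} (hc : T.c x = T.c y) (hxy : x ≠ y) :
    eval (T.τ x) (T.num x y) = T.den x y := by
  rw [num, map_sub, eval_C, map_prod]
  obtain ⟨i, hi⟩ := T.diffSet_nonempty hc hxy
  have : eval (T.τ x) (MvPolynomial.C (T.τ x i - T.τ y i) -
      (MvPolynomial.X i - MvPolynomial.C (T.τ y i))) = 0 := by
    simp
  rw [Finset.prod_eq_zero hi this, sub_zero]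

theorem num_mem (x y : X) : T.num x y ∈ coeffSubring A.toSubring (Fin g) := by
  refine Subring.sub_mem _ (C_mem_coeffSubring (T.den_mem x y)) (Subring.prod_mem _ fun i _ => ?_)
  refine Subring.sub_mem _ (C_mem_coeffSubring (sub_mem (T.τ_mem x i) (T.τ_mem y i))) ?_
  exact Subring.sub_mem _ (X_mem_coeffSubring i) (C_mem_coeffSubring (T.τ_mem y i))

theorem polySmul_num (σ : G) (x y : X) : polySmul σ (T.num x y) = T.num (σ • x) (σ • y) := by
  rw [num, num, map_sub, polySmul_C, T.smul_den, map_prod, T.diffSet_smul]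
  congr 1
  refine Finset.prod_congr rfl fun i _ => ?_
  simp only [map_sub, polySmul_C, polySmul_X, T.τ_smul]

variable [Fintype X]

open Classical in
/-- the other points of the fibre of `x` -/
def others (x : X) : Finset X := Finset.univ.filter fun y => y ≠ x ∧ T.c y = T.c x

theorem mem_others {x y : X} : y ∈ T.others x ↔ y ≠ x ∧ T.c y = T.c x := by
  classical
  simp [others]

theorem mem_others_smul (σ : G) {x y : X} : σ • y ∈ T.others (σ • x) ↔ y ∈ T.others x := by
  rw [mem_others, mem_others, T.c_smul, T.c_smul]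
  exact and_congr_left fun _ => not_congr (MulAction.injective σ).eq_iff

/-- the interpolation polynomial of `x`: zero at the other points of the fibre -/
def N (x : X) : MvPolynomial (Fin g) K := ∏ y ∈ T.others x, T.num x y

/-- the value of `N x` at `x` -/
def Dx (x : X) : K := ∏ y ∈ T.others x, T.den x y

theorem eval_N_self (x : X) : eval (T.τ x) (T.N x) = T.Dx x := by
  rw [N, Dx, map_prod]
  refine Finset.prod_congr rfl fun y hy => ?_
  obtain ⟨hne, hc⟩ := T.mem_others.mp hy
  exact T.eval_num_left hc.symm (Ne.symm hne)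

theorem eval_N_other {x y : X} (hy : y ∈ T.others x) : eval (T.τ y) (T.N x) = 0 := by
  rw [N, map_prod]
  exact Finset.prod_eq_zero hy (T.eval_num_right x y)

theorem N_mem (x : X) : T.N x ∈ coeffSubring A.toSubring (Fin g) :=
  Subring.prod_mem _ fun y _ => T.num_mem x y

theorem Dx_mem (x : X) : T.Dx x ∈ A := Subring.prod_mem A.toSubring fun y _ => T.den_mem x y

theorem Dx_ne_zero (x : X) : T.Dx x ≠ 0 :=
  Finset.prod_ne_zero_iff.mpr fun y _ => T.den_ne_zero x y

theorem polySmul_N (σ : G) (x : X) : polySmul σ (T.N x) = T.N (σ • x) := by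
  rw [N, N, map_prod]
  refine Finset.prod_equiv (MulAction.toPerm σ) (fun y => (T.mem_others_smul σ).symm)
    fun y _ => ?_
  rw [T.polySmul_num]
  rfl

theorem smul_Dx (σ : G) (x : X) : σ • T.Dx x = T.Dx (σ • x) := by
  rw [Dx, Dx, Finset.smul_prod']
  refine Finset.prod_equiv (MulAction.toPerm σ) (fun y => (T.mem_others_smul σ).symm)
    fun y _ => ?_
  rw [T.smul_den]
  rfl

/-- **the Cramer element** -/
def D : K := ∏ x : X, T.Dx x

theorem D_mem : T.D ∈ A := Subring.prod_mem A.toSubring fun x _ => T.Dx_mem x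

theorem D_ne_zero : T.D ≠ 0 := Finset.prod_ne_zero_iff.mpr fun x _ => T.Dx_ne_zero x

theorem smul_D (σ : G) : σ • T.D = T.D := by
  rw [D, Finset.smul_prod']
  refine Finset.prod_equiv (MulAction.toPerm σ) (fun _ => by simp) fun x _ => ?_
  rw [T.smul_Dx]
  rfl

theorem D_mem_fixedRing : T.D ∈ fixedRing A G := ⟨T.D_mem, T.smul_D⟩

open Classical in
/-- the complementary factor `D / Dx x` -/
def E (x : X) : K := ∏ x' ∈ Finset.univ.erase x, T.Dx x'

theorem E_mul_Dx (x : X) : T.E x * T.Dx x = T.D := by
  classical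
  rw [E, D, Finset.prod_erase_mul _ _ (Finset.mem_univ x)]

theorem E_mem (x : X) : T.E x ∈ A := Subring.prod_mem A.toSubring fun x' _ => T.Dx_mem x'

theorem smul_E (σ : G) (x : X) : σ • T.E x = T.E (σ • x) := by
  classical
  rw [E, E, Finset.smul_prod']
  refine Finset.prod_equiv (MulAction.toPerm σ) (fun y => ?_) fun y _ => ?_
  · simp only [Finset.mem_erase, Finset.mem_univ, and_true, MulAction.toPerm_apply]
    exact not_congr (MulAction.injective σ).eq_iff.symm
  · rw [T.smul_Dx]
    rfl

open Classical in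
/-- the fibre over `c₀` -/
def fibre (c₀ : C) : Finset X := Finset.univ.filter fun x => T.c x = c₀

theorem mem_fibre {c₀ : C} {x : X} : x ∈ T.fibre c₀ ↔ T.c x = c₀ := by
  classical
  simp [fibre]

/-- the interpolant of `D φ` on the fibre `c₀` -/
def interp (φ : X → K) (c₀ : C) : MvPolynomial (Fin g) K :=
  ∑ x ∈ T.fibre c₀, MvPolynomial.C (φ x * T.E x) * T.N x

theorem eval_interp (φ : X → K) {c₀ : C} {y : X} (hy : T.c y = c₀) :
    eval (T.τ y) (T.interp φ c₀) = T.D * φ y := by
  classical
  rw [interp, map_sum, Finset.sum_eq_single y]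
  · rw [map_mul, eval_C, T.eval_N_self, mul_assoc, T.E_mul_Dx, mul_comm]
  · intro x hx hxy
    rw [map_mul, T.eval_N_other (T.mem_others.mpr ⟨Ne.symm hxy, hy.trans (T.mem_fibre.mp hx).symm⟩),
      mul_zero]
  · intro h
    exact absurd (T.mem_fibre.mpr hy) h

theorem interp_mem {φ : X → K} (hφ : IsIntegralValued A φ) (c₀ : C) :
    T.interp φ c₀ ∈ coeffSubring A.toSubring (Fin g) :=
  Subring.sum_mem _ fun x _ =>
    Subring.mul_mem _ (C_mem_coeffSubring (A.mul_mem _ _ (hφ x) (T.E_mem x))) (T.N_mem x)

theorem polySmul_interp {φ : X → K} (hφ : IsEquivariant G φ) (σ : G) (c₀ : C) :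
    polySmul σ (T.interp φ c₀) = T.interp φ c₀ := by
  rw [interp, map_sum]
  refine Finset.sum_equiv (MulAction.toPerm σ) (fun x => ?_) fun x _ => ?_
  · rw [T.mem_fibre, T.mem_fibre]
    show T.c x = c₀ ↔ T.c (σ • x) = c₀
    rw [T.c_smul]
  · rw [map_mul, polySmul_C, T.polySmul_N, smul_mul', T.smul_E, ← hφ σ x]
    rfl

/-- **uniform fullness**: `D φ` lies in the order for every equivariant `A`-valued `φ` -/
theorem D_smul_mem_order {φ : X → K} (hφ : IsEquivariant G φ) (hφA : IsIntegralValued A φ) :
    (fun x => T.D * φ x) ∈ T.order := by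
  refine ⟨fun σ x => ?_, fun c₀ => ?_⟩
  · show T.D * φ (σ • x) = σ • (T.D * φ x)
    rw [smul_mul', T.smul_D, hφ]
  · obtain ⟨Q, hQ⟩ := exists_typed_of_mem
      (mem_coeffSubring_fixedRing (T.interp_mem hφA c₀) fun σ => T.polySmul_interp hφ σ c₀)
    refine ⟨Q, fun x hx => ?_⟩
    rw [aeval_typed, hQ, T.eval_interp φ hx]

end Coords

end Fermat.Agent.S19lib.F
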