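/-
S19lib / F / Tensor  (helper2)  — Project FF, block FF-F.

The image of `H ⊗ H` (`H = order T`) in the functions on `X × X`:
`prodSpan T = span_{A0} {ψ₁ ⊗ ψ₂ : ψᵢ ∈ H}`.  It contains every function that is, on each
`Γ_{c₁} × Γ_{c₂}`, a polynomial over `A0` in the `2g` coordinates (`indPoly₂_mem`), and
**`D² ψ ∈ prodSpan T` for every diagonally equivariant `A`-valued `ψ`** (`DD_smul_mem_prodSpan`).
-/
import Mathlib
import Fermat.Agent.S19lib.F.Interp

set_option autoImplicit false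

noncomputable section

namespace Fermat.Agent.S19lib.F

open MvPolynomial

variable {K : Type*} [Field K] {A : ValuationSubring K}
variable {G : Type*} [Group G] [MulSemiringAction G K]
variable {X C : Type*} [MulAction G X] {g : ℕ}

/-- `ψ₁ ⊗ ψ₂` as a function on `X × X` -/
def tmul (ψ₁ ψ₂ : X → K) : X × X → K := fun p => ψ₁ p.1 * ψ₂ p.2

@[simp] theorem tmul_apply (ψ₁ ψ₂ : X → K) (p : X × X) : tmul ψ₁ ψ₂ p = ψ₁ p.1 * ψ₂ p.2 := rfl

theorem tmul_mul (ψ₁ ψ₂ ψ₁' ψ₂' : X → K) :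
    tmul ψ₁ ψ₂ * tmul ψ₁' ψ₂' = tmul (ψ₁ * ψ₁') (ψ₂ * ψ₂') := by
  funext p
  simp only [Pi.mul_apply, tmul_apply]
  ring

theorem tmul_one_one : tmul (1 : X → K) 1 = 1 := by
  funext p
  simp

namespace Coords

variable (T : Coords A G X C g)

/-- the submonoid of pure tensors -/
def tmulMonoid : Submonoid (X × X → K) where
  carrier := {f | ∃ ψ₁ ∈ T.order, ∃ ψ₂ ∈ T.order, f = tmul ψ₁ ψ₂}
  mul_mem' := by
    rintro _ _ ⟨ψ₁, h₁, ψ₂, h₂, rfl⟩ ⟨ψ₁', h₁', ψ₂', h₂', rfl⟩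
    exact ⟨ψ₁ * ψ₁', T.order.mul_mem h₁ h₁', ψ₂ * ψ₂', T.order.mul_mem h₂ h₂', tmul_mul _ _ _ _⟩
  one_mem' := ⟨1, T.order.one_mem, 1, T.order.one_mem, tmul_one_one.symm⟩

theorem tmul_mem_tmulMonoid {ψ₁ ψ₂ : X → K} (h₁ : ψ₁ ∈ T.order) (h₂ : ψ₂ ∈ T.order) :
    tmul ψ₁ ψ₂ ∈ T.tmulMonoid := ⟨ψ₁, h₁, ψ₂, h₂, rfl⟩

/-- **the image of `H ⊗ H`** in the functions on `X × X` -/
def prodSpan : Submodule (fixedRing A G) (X × X → K) :=
  Submodule.span (fixedRing A G) (T.tmulMonoid : Set (X × X → K))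

/-- the same as a subalgebra -/
def prodAlg : Subalgebra (fixedRing A G) (X × X → K) :=
  Algebra.adjoin (fixedRing A G) (T.tmulMonoid : Set (X × X → K))

theorem prodAlg_toSubmodule : Subalgebra.toSubmodule T.prodAlg = T.prodSpan := by
  rw [prodAlg, prodSpan, Algebra.adjoin_eq_span, Submonoid.closure_eq]

theorem mem_prodAlg_iff {f : X × X → K} : f ∈ T.prodAlg ↔ f ∈ T.prodSpan := by
  rw [← T.prodAlg_toSubmodule]
  rfl

theorem tmul_mem_prodSpan {ψ₁ ψ₂ : X → K} (h₁ : ψ₁ ∈ T.order) (h₂ : ψ₂ ∈ T.order) :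
    tmul ψ₁ ψ₂ ∈ T.prodSpan :=
  Submodule.subset_span (T.tmul_mem_tmulMonoid h₁ h₂)

/-- the `i`-th coordinate as a function of the order -/
def coordFun (i : Fin g) : X → K := fun x => T.τ x i

theorem coordFun_mem (i : Fin g) : T.coordFun i ∈ T.order := by
  refine ⟨fun σ x => T.τ_smul σ x i, fun c₀ => ⟨MvPolynomial.X i, fun x _ => ?_⟩⟩
  rw [aeval_X]
  rfl

open Classical in
/-- the indicator function of a fibre -/
def ind (c₀ : C) : X → K := fun x => if T.c x = c₀ then 1 else 0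

theorem ind_mem (c₀ : C) : T.ind c₀ ∈ T.order := by
  classical
  have : T.ind c₀ = T.indPoly c₀ 1 := by
    funext x
    unfold ind indPoly
    rw [map_one]
  rw [this]
  exact T.indPoly_mem c₀ 1

open Classical in
/-- a polynomial in the `2g` coordinates on `Γ_{c₁} × Γ_{c₂}`, zero elsewhere -/
def indPoly₂ (c₁ c₂ : C) (Q : MvPolynomial (Fin g ⊕ Fin g) (fixedRing A G)) : X × X → K :=
  fun p => if T.c p.1 = c₁ ∧ T.c p.2 = c₂ then aeval (Sum.elim (T.τ p.1) (T.τ p.2)) Q else 0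

/-- the `2g` coordinate functions on `X × X` -/
def coord₂ : Fin g ⊕ Fin g → X × X → K :=
  Sum.elim (fun i => tmul (T.coordFun i) 1) (fun i => tmul 1 (T.coordFun i))

theorem coord₂_mem (j : Fin g ⊕ Fin g) : T.coord₂ j ∈ T.prodAlg := by
  rw [mem_prodAlg_iff]
  cases j with
  | inl i => exact T.tmul_mem_prodSpan (T.coordFun_mem i) T.order.one_mem
  | inr i => exact T.tmul_mem_prodSpan T.order.one_mem (T.coordFun_mem i)

theorem aeval_coord₂_apply (Q : MvPolynomial (Fin g ⊕ Fin g) (fixedRing A G)) (p : X × X) :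
    (aeval T.coord₂ Q : X × X → K) p = aeval (Sum.elim (T.τ p.1) (T.τ p.2)) Q := by
  have h := (MvPolynomial.aeval_unique
    (((Pi.evalAlgHom (fixedRing A G) (fun _ : X × X => K) p)).comp
      (aeval T.coord₂ : MvPolynomial (Fin g ⊕ Fin g) (fixedRing A G) →ₐ[fixedRing A G] _)))
  have h2 := DFunLike.congr_fun h Q
  simp only [AlgHom.comp_apply, Pi.evalAlgHom_apply] at h2
  rw [h2]
  congr 2
  funext j
  cases j with
  | inl i => simp [coord₂, coordFun]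
  | inr i => simp [coord₂, coordFun]

theorem aeval_coord₂_mem (Q : MvPolynomial (Fin g ⊕ Fin g) (fixedRing A G)) :
    (aeval T.coord₂ Q : X × X → K) ∈ T.prodAlg := by
  have h : (aeval T.coord₂ Q : X × X → K) ∈
      (aeval T.coord₂ : MvPolynomial (Fin g ⊕ Fin g) (fixedRing A G) →ₐ[fixedRing A G] _).range :=
    ⟨Q, rfl⟩
  rw [← Algebra.adjoin_range_eq_range_aeval] at h
  refine Algebra.adjoin_le ?_ h
  rintro _ ⟨j, rfl⟩
  exact T.coord₂_mem j

/-- polynomial functions on `Γ_{c₁} × Γ_{c₂}` lie in the image of `H ⊗ H` -/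
theorem indPoly₂_mem (c₁ c₂ : C) (Q : MvPolynomial (Fin g ⊕ Fin g) (fixedRing A G)) :
    T.indPoly₂ c₁ c₂ Q ∈ T.prodSpan := by
  classical
  have h : T.indPoly₂ c₁ c₂ Q = tmul (T.ind c₁) (T.ind c₂) * aeval T.coord₂ Q := by
    funext p
    rw [Pi.mul_apply, T.aeval_coord₂_apply, tmul_apply]
    unfold indPoly₂ ind
    by_cases h1 : T.c p.1 = c₁
    · by_cases h2 : T.c p.2 = c₂
      · rw [if_pos ⟨h1, h2⟩, if_pos h1, if_pos h2, one_mul, one_mul]
      · rw [if_neg (fun h => h2 h.2), if_neg h2, mul_zero, zero_mul]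
    · rw [if_neg (fun h => h1 h.1), if_neg h1, zero_mul, zero_mul]
  rw [h, ← mem_prodAlg_iff]
  exact T.prodAlg.mul_mem
    ((T.mem_prodAlg_iff).mpr (T.tmul_mem_prodSpan (T.ind_mem c₁) (T.ind_mem c₂)))
    (T.aeval_coord₂_mem Q)

end Coords

end Fermat.Agent.S19lib.F
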