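/-
S19lib / F / Full2  (helper2)  — Project FF, block FF-F.

**Uniform fullness of `H ⊗ H` in the functions on `X × X`**: for every `A`-valued `ψ : X × X → K`
equivariant for the diagonal action, `D² ψ ∈ prodSpan T` (two-variable choice-free Lagrange
interpolation; the coefficients of the interpolant are `G`-fixed and integral, hence in `A0`).
-/
import Mathlib
import Fermat.Agent.S19lib.F.Tensor

set_option autoImplicit false

noncomputable section

namespace Fermat.Agent.S19lib.F

open MvPolynomial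

variable {K : Type*} [Field K] {A : ValuationSubring K}
variable {G : Type*} [Group G] [MulSemiringAction G K]
variable {X C : Type*} [MulAction G X] {g : ℕ}

theorem rename_mem_coeffSubring {ι κ : Type*} {S : Subring K} (f : ι → κ) {P : MvPolynomial ι K}
    (hP : P ∈ coeffSubring S ι) : rename f P ∈ coeffSubring S κ := by
  obtain ⟨Q, rfl⟩ := hP
  exact ⟨rename f Q, map_rename S.subtype f Q⟩

theorem polySmul_rename {ι κ : Type*} (σ : G) (f : ι → κ) (P : MvPolynomial ι K) :
    polySmul σ (rename f P) = rename f (polySmul σ P) :=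
  map_rename _ _ _

namespace Coords

variable (T : Coords A G X C g) [Fintype X]

/-- the two-variable interpolant of `D² ψ` on `Γ_{c₁} × Γ_{c₂}` -/
def interp₂ (ψ : X × X → K) (c₁ c₂ : C) : MvPolynomial (Fin g ⊕ Fin g) K :=
  ∑ y ∈ T.fibre c₁, ∑ y' ∈ T.fibre c₂, MvPolynomial.C (ψ (y, y') * (T.E y * T.E y')) *
    (rename Sum.inl (T.N y) * rename Sum.inr (T.N y'))

theorem eval_interp₂ (ψ : X × X → K) {c₁ c₂ : C} {x x' : X} (hx : T.c x = c₁)
    (hx' : T.c x' = c₂) :
    eval (Sum.elim (T.τ x) (T.τ x')) (T.interp₂ ψ c₁ c₂) = T.D * T.D * ψ (x, x') := by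
  classical
  have hterm : ∀ y y' : X, eval (Sum.elim (T.τ x) (T.τ x'))
      (MvPolynomial.C (ψ (y, y') * (T.E y * T.E y')) *
        (rename Sum.inl (T.N y) * rename Sum.inr (T.N y'))) =
      ψ (y, y') * (T.E y * T.E y') * (eval (T.τ x) (T.N y) * eval (T.τ x') (T.N y')) := by
    intro y y'
    rw [(eval _).map_mul, (eval _).map_mul, eval_C, eval_rename, eval_rename, Sum.elim_comp_inl,
      Sum.elim_comp_inr]
  rw [interp₂, map_sum, Finset.sum_eq_single x]
  · rw [map_sum, Finset.sum_eq_single x']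
    · rw [hterm, T.eval_N_self, T.eval_N_self,
        show T.D * T.D = (T.E x * T.Dx x) * (T.E x' * T.Dx x') by rw [T.E_mul_Dx, T.E_mul_Dx]]
      ring
    · intro y' hy' hne
      rw [hterm, T.eval_N_other (T.mem_others.mpr
        ⟨Ne.symm hne, hx'.trans (T.mem_fibre.mp hy').symm⟩), mul_zero, mul_zero]
    · intro h
      exact absurd (T.mem_fibre.mpr hx') h
  · intro y hy hne
    rw [map_sum]
    refine Finset.sum_eq_zero fun y' _ => ?_
    rw [hterm, T.eval_N_other (T.mem_others.mpr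
      ⟨Ne.symm hne, hx.trans (T.mem_fibre.mp hy).symm⟩), zero_mul, mul_zero]
  · intro h
    exact absurd (T.mem_fibre.mpr hx) h

theorem interp₂_mem {ψ : X × X → K} (hψ : IsIntegralValued A ψ) (c₁ c₂ : C) :
    T.interp₂ ψ c₁ c₂ ∈ coeffSubring A.toSubring (Fin g ⊕ Fin g) :=
  Subring.sum_mem _ fun y _ => Subring.sum_mem _ fun y' _ =>
    Subring.mul_mem _
      (C_mem_coeffSubring (A.mul_mem _ _ (hψ _) (A.mul_mem _ _ (T.E_mem y) (T.E_mem y'))))
      (Subring.mul_mem _ (rename_mem_coeffSubring _ (T.N_mem y))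
        (rename_mem_coeffSubring _ (T.N_mem y')))

theorem polySmul_interp₂ {ψ : X × X → K} (hψ : IsEquivariant G ψ) (σ : G) (c₁ c₂ : C) :
    polySmul σ (T.interp₂ ψ c₁ c₂) = T.interp₂ ψ c₁ c₂ := by
  have hfib : ∀ (c₀ : C) (x : X), x ∈ T.fibre c₀ ↔ (MulAction.toPerm σ) x ∈ T.fibre c₀ := by
    intro c₀ x
    rw [T.mem_fibre, T.mem_fibre]
    show T.c x = c₀ ↔ T.c (σ • x) = c₀
    rw [T.c_smul]
  rw [interp₂, map_sum]
  refine Finset.sum_equiv (MulAction.toPerm σ) (hfib c₁) fun y _ => ?_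
  rw [map_sum]
  refine Finset.sum_equiv (MulAction.toPerm σ) (hfib c₂) fun y' _ => ?_
  rw [(polySmul σ).map_mul, (polySmul σ).map_mul, polySmul_C, polySmul_rename, polySmul_rename,
    T.polySmul_N, T.polySmul_N, smul_mul', smul_mul', T.smul_E, T.smul_E, ← hψ σ (y, y')]
  rfl

/-- **uniform fullness of `H ⊗ H`** -/
theorem DD_smul_mem_prodSpan {ψ : X × X → K} (hψ : IsEquivariant G ψ)
    (hψA : IsIntegralValued A ψ) : (fun p => T.D * T.D * ψ p) ∈ T.prodSpan := by
  classical
  have hex : ∀ c₁ c₂ : C, ∃ Q : MvPolynomial (Fin g ⊕ Fin g) (fixedRing A G),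
      MvPolynomial.map (fixedRing A G).subtype Q = T.interp₂ ψ c₁ c₂ := fun c₁ c₂ =>
    exists_typed_of_mem
      (mem_coeffSubring_fixedRing (T.interp₂_mem hψA c₁ c₂) fun σ => T.polySmul_interp₂ hψ σ c₁ c₂)
  choose Q hQ using hex
  let img : Finset C := Finset.univ.image T.c
  have hsum : (fun p => T.D * T.D * ψ p) =
      ∑ c₁ ∈ img, ∑ c₂ ∈ img, T.indPoly₂ c₁ c₂ (Q c₁ c₂) := by
    funext p
    rw [Finset.sum_apply, Finset.sum_eq_single (T.c p.1)]
    · rw [Finset.sum_apply, Finset.sum_eq_single (T.c p.2)]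
      · unfold indPoly₂
        rw [if_pos ⟨rfl, rfl⟩, aeval_typed, hQ, T.eval_interp₂ ψ rfl rfl]
      · intro c₂ _ hne
        unfold indPoly₂
        rw [if_neg (fun h => hne h.2.symm)]
      · intro h
        exact absurd (Finset.mem_image_of_mem T.c (Finset.mem_univ p.2)) h
    · intro c₁ _ hne
      rw [Finset.sum_apply]
      refine Finset.sum_eq_zero fun c₂ _ => ?_
      unfold indPoly₂
      rw [if_neg (fun h => hne h.1.symm)]
    · intro h
      exact absurd (Finset.mem_image_of_mem T.c (Finset.mem_univ p.1)) h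
  rw [hsum]
  exact Submodule.sum_mem _ fun c₁ _ => Submodule.sum_mem _ fun c₂ _ => T.indPoly₂_mem c₁ c₂ _

end Coords

end Fermat.Agent.S19lib.F
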