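/-
S19lib / F / Approx  (helper2)  — Project FF, block FF-F.

**The truncation principle.**  A `G`-equivariant function on `X` which is, on every fibre,
congruent modulo `D • A` to a polynomial over `A0` in the coordinates, lies in the order
(`mem_order_of_approx`); a diagonally equivariant function on `X × X` which is, on every
`Γ_{c₁} × Γ_{c₂}`, congruent modulo `D² • A` to a polynomial over `A0` in the `2g` coordinates lies
in the image of `H ⊗ H` (`mem_prodSpan_of_approx`).
-/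
import Mathlib
import Fermat.Agent.S19lib.F.Full2

set_option autoImplicit false

noncomputable section

namespace Fermat.Agent.S19lib.F

open MvPolynomial

variable {K : Type*} [Field K] {A : ValuationSubring K}
variable {G : Type*} [Group G] [MulSemiringAction G K]
variable {X C : Type*} [MulAction G X] {g : ℕ}

theorem IsEquivariant.sub {Y : Type*} [MulAction G Y] {φ ψ : Y → K} (hφ : IsEquivariant G φ)
    (hψ : IsEquivariant G ψ) : IsEquivariant G (φ - ψ) := fun σ y => by
  show φ (σ • y) - ψ (σ • y) = σ • (φ y - ψ y)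
  rw [hφ, hψ, smul_sub]

namespace Coords

variable (T : Coords A G X C g)

/-- elements of the image of `H ⊗ H` are diagonally equivariant -/
theorem isEquivariant_of_mem_prodSpan {f : X × X → K} (hf : f ∈ T.prodSpan) :
    IsEquivariant G f := by
  refine Submodule.span_induction (p := fun f _ => IsEquivariant G f) ?_ ?_ ?_ ?_ hf
  · rintro _ ⟨ψ₁, h₁, ψ₂, h₂, rfl⟩ σ p
    show ψ₁ (σ • p.1) * ψ₂ (σ • p.2) = σ • (ψ₁ p.1 * ψ₂ p.2)
    rw [h₁.1, h₂.1, smul_mul']
  · intro σ p
    show (0 : K) = σ • (0 : K)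
    rw [smul_zero]
  · intro f₁ f₂ _ _ h₁ h₂ σ p
    show f₁ (σ • p) + f₂ (σ • p) = σ • (f₁ p + f₂ p)
    rw [h₁, h₂, smul_add]
  · intro a f₁ _ h₁ σ p
    show (a : K) * f₁ (σ • p) = σ • ((a : K) * f₁ p)
    rw [h₁, smul_mul', smul_coe]

variable [Fintype X]

open Classical in
/-- the function which is `P c₀ ∘ τ` on the fibre `c₀` -/
def patch (P : C → MvPolynomial (Fin g) (fixedRing A G)) : X → K :=
  ∑ c₀ ∈ Finset.univ.image T.c, T.indPoly c₀ (P c₀)

theorem patch_mem (P : C → MvPolynomial (Fin g) (fixedRing A G)) : T.patch P ∈ T.order :=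
  T.order.sum_mem fun c₀ _ => T.indPoly_mem c₀ (P c₀)

theorem patch_apply (P : C → MvPolynomial (Fin g) (fixedRing A G)) (x : X) :
    T.patch P x = aeval (T.τ x) (P (T.c x)) := by
  classical
  rw [patch, Finset.sum_apply, Finset.sum_eq_single (T.c x)]
  · exact T.indPoly_apply_of_eq _ rfl
  · intro c₀ _ hne
    exact T.indPoly_apply_of_ne _ (Ne.symm hne)
  · intro h
    exact absurd (Finset.mem_image_of_mem T.c (Finset.mem_univ x)) h

/-- **truncation principle on `X`** -/
theorem mem_order_of_approx {φ : X → K} (hφ : IsEquivariant G φ)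
    (h : ∀ c₀ : C, ∃ P : MvPolynomial (Fin g) (fixedRing A G),
      ∀ x, T.c x = c₀ → DvdA A T.D (φ x - aeval (T.τ x) P)) : φ ∈ T.order := by
  choose P hP using h
  have hE : IsEquivariant G (φ - T.patch P) := hφ.sub (T.patch_mem P).1
  have hdiv : ∀ x, DvdA A T.D ((φ - T.patch P) x) := by
    intro x
    show DvdA A T.D (φ x - T.patch P x)
    rw [T.patch_apply]
    exact hP (T.c x) x rfl
  have hψ : (fun x => T.D * ((φ - T.patch P) x / T.D)) ∈ T.order := by
    refine T.D_smul_mem_order (fun σ x => ?_) (fun x => (hdiv x).div_mem T.D_ne_zero)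
    show (φ - T.patch P) (σ • x) / T.D = σ • ((φ - T.patch P) x / T.D)
    rw [hE, div_eq_mul_inv, div_eq_mul_inv, smul_mul', smul_inv'', T.smul_D]
  have hE' : (fun x => T.D * ((φ - T.patch P) x / T.D)) = φ - T.patch P := by
    funext x
    exact mul_div_cancel₀ _ T.D_ne_zero
  rw [hE'] at hψ
  have := T.order.add_mem hψ (T.patch_mem P)
  rwa [sub_add_cancel] at this

open Classical in
/-- the function on `X × X` which is `Q c₁ c₂ ∘ (τ, τ)` on `Γ_{c₁} × Γ_{c₂}` -/
def patch₂ (Q : C → C → MvPolynomial (Fin g ⊕ Fin g) (fixedRing A G)) : X × X → K :=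
  ∑ c₁ ∈ Finset.univ.image T.c, ∑ c₂ ∈ Finset.univ.image T.c, T.indPoly₂ c₁ c₂ (Q c₁ c₂)

theorem patch₂_mem (Q : C → C → MvPolynomial (Fin g ⊕ Fin g) (fixedRing A G)) :
    T.patch₂ Q ∈ T.prodSpan :=
  Submodule.sum_mem _ fun c₁ _ => Submodule.sum_mem _ fun c₂ _ => T.indPoly₂_mem c₁ c₂ _

theorem patch₂_apply (Q : C → C → MvPolynomial (Fin g ⊕ Fin g) (fixedRing A G)) (p : X × X) :
    T.patch₂ Q p = aeval (Sum.elim (T.τ p.1) (T.τ p.2)) (Q (T.c p.1) (T.c p.2)) := by
  classical
  rw [patch₂, Finset.sum_apply, Finset.sum_eq_single (T.c p.1)]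
  · rw [Finset.sum_apply, Finset.sum_eq_single (T.c p.2)]
    · unfold indPoly₂
      rw [if_pos ⟨rfl, rfl⟩]
    · intro c₂ _ hne
      unfold indPoly₂
      rw [if_neg (fun h => hne h.2.symm)]
    · intro h
      exact absurd (Finset.mem_image_of_mem T.c (Finset.mem_univ p.2)) h
  · intro c₁ _ hne
    rw [Finset.sum_apply]
    refine Finset.sum_eq_zero fun c₂ _ => ?_
    unfold indPoly₂
    rw [if_neg (fun h => hne h.1.symm)]
  · intro h
    exact absurd (Finset.mem_image_of_mem T.c (Finset.mem_univ p.1)) h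

/-- **truncation principle on `X × X`** -/
theorem mem_prodSpan_of_approx {ψ : X × X → K} (hψ : IsEquivariant G ψ)
    (h : ∀ c₁ c₂ : C, ∃ Q : MvPolynomial (Fin g ⊕ Fin g) (fixedRing A G),
      ∀ x x', T.c x = c₁ → T.c x' = c₂ →
        DvdA A (T.D * T.D) (ψ (x, x') - aeval (Sum.elim (T.τ x) (T.τ x')) Q)) :
    ψ ∈ T.prodSpan := by
  choose Q hQ using h
  have hDD : T.D * T.D ≠ 0 := mul_ne_zero T.D_ne_zero T.D_ne_zero
  have hE : IsEquivariant G (ψ - T.patch₂ Q) :=
    hψ.sub (T.isEquivariant_of_mem_prodSpan (T.patch₂_mem Q))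
  have hdiv : ∀ p, DvdA A (T.D * T.D) ((ψ - T.patch₂ Q) p) := by
    intro p
    show DvdA A (T.D * T.D) (ψ p - T.patch₂ Q p)
    rw [T.patch₂_apply]
    exact hQ (T.c p.1) (T.c p.2) p.1 p.2 rfl rfl
  have hψ' : (fun p => T.D * T.D * ((ψ - T.patch₂ Q) p / (T.D * T.D))) ∈ T.prodSpan := by
    refine T.DD_smul_mem_prodSpan (fun σ p => ?_) (fun p => (hdiv p).div_mem hDD)
    show (ψ - T.patch₂ Q) (σ • p) / (T.D * T.D) = σ • ((ψ - T.patch₂ Q) p / (T.D * T.D))
    rw [hE, div_eq_mul_inv, div_eq_mul_inv, smul_mul', smul_inv'', smul_mul', T.smul_D]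
  have hE' : (fun p => T.D * T.D * ((ψ - T.patch₂ Q) p / (T.D * T.D))) = ψ - T.patch₂ Q := by
    funext p
    exact mul_div_cancel₀ _ hDD
  rw [hE'] at hψ'
  have := T.prodSpan.add_mem hψ' (T.patch₂_mem Q)
  rwa [sub_add_cancel] at this

end Coords

end Fermat.Agent.S19lib.F
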