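/-
S19lib / F / Hopf  (helper2)  — Project FF, block FF-F.

**Hopf closure of the order by truncation.**  `X` an abelian group on which `G` acts by
automorphisms, `c : X → C` additive.  If the group law (resp. the negation) is, in the coordinates
`τ`, congruent modulo `D² • A` (resp. `D • A`) to polynomials over `A0` on every
`Γ_{c₁} × Γ_{c₂}` (resp. `Γ_{c₁}`), then

* `comul_mem_prodSpan`  : `Δφ = φ(x + x') ∈ span {ψ₁ ⊗ ψ₂}`  (`Δ(H) ⊆ H ⊗ H`),
* `antipode_mem_order`  : `φ ∘ neg ∈ H`,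
* `counit_mem`          : `φ 0 ∈ A0`,
* `order_le_of_trans`   : independence of the coordinates (analytic transition ⇒ same order).
-/
import Mathlib
import Fermat.Agent.S19lib.F.Approx

set_option autoImplicit false
set_option linter.unusedSectionVars false

noncomputable section

namespace Fermat.Agent.S19lib.F

open MvPolynomial

variable {K : Type*} [Field K] {A : ValuationSubring K}
variable {G : Type*} [Group G] [MulSemiringAction G K]

namespace Coords

section Transition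

variable {X C : Type*} [MulAction G X] {g g' : ℕ} [Fintype X]
variable (T : Coords A G X C g) (T' : Coords A G X C g')

/-- the coordinates `τ'` are, modulo `d • A`, polynomials over `A0` in the coordinates `τ` on every
fibre of `T` -/
def Trans (d : K) : Prop :=
  ∀ c₀ : C, ∃ Φ : Fin g' → MvPolynomial (Fin g) (fixedRing A G),
    ∀ x, T.c x = c₀ → ∀ i, DvdA A d (T'.τ x i - aeval (T.τ x) (Φ i))

/-- **independence of the coordinates**: if the fibres agree and `τ'` is analytic in `τ`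
(modulo the Cramer element of `T`), every `τ'`-analytic function is `τ`-analytic. -/
theorem order_le_of_trans (hc : T'.c = T.c) (h : T.Trans T' T.D) : T'.order ≤ T.order := by
  intro φ hφ
  refine T.mem_order_of_approx hφ.1 fun c₀ => ?_
  obtain ⟨Φ, hΦ⟩ := h c₀
  obtain ⟨P, hP⟩ := hφ.2 c₀
  refine ⟨bind₁ Φ P, fun x hx => ?_⟩
  rw [hP x (by rw [hc]; exact hx), aeval_bind₁]
  exact aeval_sub_mem P T.D_mem (T'.τ_mem x) (fun i => aeval_mem (Φ i) (T.τ_mem x)) (hΦ x hx)

theorem order_eq_of_trans (hc : T'.c = T.c) (h : T.Trans T' T.D) (h' : T'.Trans T T'.D) :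
    T'.order = T.order :=
  le_antisymm (T.order_le_of_trans T' hc h) (T'.order_le_of_trans T hc.symm h')

end Transition

section Group

variable {X C : Type*} [AddCommGroup X] [DistribMulAction G X] [AddCommGroup C] {g : ℕ}
  [Fintype X]
variable (T : Coords A G X C g)

/-- the group law is, modulo `d • A`, polynomial over `A0` in the coordinates -/
def AddApprox (d : K) : Prop :=
  ∀ c₁ c₂ : C, ∃ Φ : Fin g → MvPolynomial (Fin g ⊕ Fin g) (fixedRing A G),
    ∀ x x', T.c x = c₁ → T.c x' = c₂ →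
      ∀ i, DvdA A d (T.τ (x + x') i - aeval (Sum.elim (T.τ x) (T.τ x')) (Φ i))

/-- the negation is, modulo `d • A`, polynomial over `A0` in the coordinates -/
def NegApprox (d : K) : Prop :=
  ∀ c₁ : C, ∃ Φ : Fin g → MvPolynomial (Fin g) (fixedRing A G),
    ∀ x, T.c x = c₁ → ∀ i, DvdA A d (T.τ (-x) i - aeval (T.τ x) (Φ i))

/-- **`Δ(H) ⊆ H ⊗ H`** -/
theorem comul_mem_prodSpan (hc : ∀ x y, T.c (x + y) = T.c x + T.c y)
    (hadd : T.AddApprox (T.D * T.D)) {φ : X → K} (hφ : φ ∈ T.order) :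
    (fun p : X × X => φ (p.1 + p.2)) ∈ T.prodSpan := by
  refine T.mem_prodSpan_of_approx (fun σ p => ?_) fun c₁ c₂ => ?_
  · show φ (σ • p.1 + σ • p.2) = σ • φ (p.1 + p.2)
    rw [← smul_add, hφ.1]
  · obtain ⟨Φ, hΦ⟩ := hadd c₁ c₂
    obtain ⟨P, hP⟩ := hφ.2 (c₁ + c₂)
    refine ⟨bind₁ Φ P, fun x x' hx hx' => ?_⟩
    show DvdA A (T.D * T.D) (φ (x + x') - _)
    rw [hP (x + x') (by rw [hc, hx, hx']), aeval_bind₁]
    refine aeval_sub_mem P (A.mul_mem _ _ T.D_mem T.D_mem) (T.τ_mem (x + x'))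
      (fun i => aeval_mem (Φ i) ?_) (hΦ x x' hx hx')
    intro j
    cases j with
    | inl i => exact T.τ_mem x i
    | inr i => exact T.τ_mem x' i

/-- **`S(H) ⊆ H`** -/
theorem antipode_mem_order (hc : ∀ x, T.c (-x) = -T.c x) (hneg : T.NegApprox T.D) {φ : X → K}
    (hφ : φ ∈ T.order) : (fun x => φ (-x)) ∈ T.order := by
  refine T.mem_order_of_approx (fun σ x => ?_) fun c₁ => ?_
  · show φ (-(σ • x)) = σ • φ (-x)
    rw [← smul_neg, hφ.1]
  · obtain ⟨Φ, hΦ⟩ := hneg c₁
    obtain ⟨P, hP⟩ := hφ.2 (-c₁)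
    refine ⟨bind₁ Φ P, fun x hx => ?_⟩
    show DvdA A T.D (φ (-x) - _)
    rw [hP (-x) (by rw [hc, hx]), aeval_bind₁]
    exact aeval_sub_mem P T.D_mem (T.τ_mem (-x)) (fun i => aeval_mem (Φ i) (T.τ_mem x)) (hΦ x hx)

/-- **`ε(H) ⊆ A0`** -/
theorem counit_mem {φ : X → K} (hφ : φ ∈ T.order) : φ 0 ∈ fixedRing A G :=
  T.apply_mem_fixedRing hφ fun σ => smul_zero σ

end Group

end Coords

end Fermat.Agent.S19lib.F
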