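/-
S19lib / F / Conj  (helper2)  — Project FF, block FF-F.

**Semilinear transport** (for the stability of the order under the decomposition group).

`s : K →+* K` a ring endomorphism preserving `A`, `sX : X → X` a surjection, `ν : G → G` with
`τ • s a = s (ν τ • a)` and `τ • sX x = sX (ν τ • x)`  (`s = σ ∈ D`, `sX = σ•`, `ν τ = σ⁻¹ τ σ`;
`G = I` is normal in `D`).  If `s ∘ τ` is, modulo `D • A`, a polynomial over `A0` in `τ ∘ sX` on the
fibres, then `φ ∈ H`, `ψ ∘ sX = s ∘ φ` imply `ψ ∈ H`.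

Also: the generalised independence of the coordinates (`order_le_of_trans'`: the partition of `T`
refines that of `T'`, different label types).
-/
import Mathlib
import Fermat.Agent.S19lib.F.Hopf

set_option autoImplicit false
set_option linter.unusedSectionVars false

noncomputable section

namespace Fermat.Agent.S19lib.F

open MvPolynomial

variable {K : Type*} [Field K] {A : ValuationSubring K}
variable {G : Type*} [Group G] [MulSemiringAction G K]

/-- a ring endomorphism of `K` preserving `A` and twisting the action of `G` by `ν` induces a ring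
endomorphism of `A0` -/
def fixedRingMap (s : K →+* K) (hsA : ∀ a ∈ A, s a ∈ A) (ν : G → G)
    (hν : ∀ (τ : G) (a : K), τ • s a = s (ν τ • a)) : fixedRing A G →+* fixedRing A G where
  toFun a := ⟨s (a : K), hsA a a.2.1, fun τ => by rw [hν, a.2.2]⟩
  map_one' := Subtype.ext (map_one s)
  map_mul' a b := Subtype.ext (map_mul s (a : K) (b : K))
  map_zero' := Subtype.ext (map_zero s)
  map_add' a b := Subtype.ext (map_add s (a : K) (b : K))

theorem coe_fixedRingMap (s : K →+* K) (hsA : ∀ a ∈ A, s a ∈ A) (ν : G → G)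
    (hν : ∀ (τ : G) (a : K), τ • s a = s (ν τ • a)) (a : fixedRing A G) :
    ((fixedRingMap s hsA ν hν a : fixedRing A G) : K) = s (a : K) := rfl

/-- `s (P(v)) = P^s (s v)` -/
theorem map_aeval_eq {ι : Type*} (s : K →+* K) (s₀ : fixedRing A G →+* fixedRing A G)
    (hs₀ : ∀ a : fixedRing A G, ((s₀ a : fixedRing A G) : K) = s (a : K))
    (P : MvPolynomial ι (fixedRing A G)) (v : ι → K) :
    s (aeval v P) = aeval (fun i => s (v i)) (MvPolynomial.map s₀ P) := by
  rw [aeval_def, aeval_def, eval₂_comp_left, eval₂_map]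
  congr 1
  exact RingHom.ext fun a => (hs₀ a).symm

namespace Coords

section Conj

variable {X C : Type*} [MulAction G X] {g : ℕ} [Fintype X]
variable (T : Coords A G X C g)

/-- `s ∘ τ` is, modulo `d • A`, polynomial over `A0` in `τ ∘ sX`, on every fibre (of the target) -/
def ConjApprox (s : K →+* K) (sX : X → X) (d : K) : Prop :=
  ∀ c₁ : C, ∃ Φ : Fin g → MvPolynomial (Fin g) (fixedRing A G),
    ∀ x, T.c (sX x) = c₁ → ∀ i, DvdA A d (s (T.τ x i) - aeval (T.τ (sX x)) (Φ i))

/-- **semilinear transport**: the order is stable under `φ ↦ s ∘ φ ∘ sX⁻¹` -/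
theorem conj_mem_order (s : K →+* K) (hsA : ∀ a ∈ A, s a ∈ A) (ν : G → G)
    (hνK : ∀ (τ : G) (a : K), τ • s a = s (ν τ • a))
    (sX : X → X) (hsX : Function.Surjective sX) (hνX : ∀ (τ : G) (x : X), τ • sX x = sX (ν τ • x))
    (hfib : ∀ x y, T.c (sX x) = T.c (sX y) → T.c x = T.c y)
    (happ : T.ConjApprox s sX T.D) {φ ψ : X → K} (hφ : φ ∈ T.order)
    (hψ : ∀ x, ψ (sX x) = s (φ x)) : ψ ∈ T.order := by
  classical
  refine T.mem_order_of_approx (fun τ y => ?_) fun c₁ => ?_
  · obtain ⟨x, rfl⟩ := hsX y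
    rw [hνX, hψ, hψ, hφ.1, hνK]
  · by_cases hne : ∃ x₀, T.c (sX x₀) = c₁
    · obtain ⟨x₀, hx₀⟩ := hne
      obtain ⟨Φ, hΦ⟩ := happ c₁
      obtain ⟨P, hP⟩ := hφ.2 (T.c x₀)
      let s₀ := fixedRingMap (A := A) s hsA ν hνK
      refine ⟨bind₁ Φ (MvPolynomial.map s₀ P), fun y hy => ?_⟩
      obtain ⟨x, rfl⟩ := hsX y
      have hx : T.c x = T.c x₀ := hfib x x₀ (hy.trans hx₀.symm)
      rw [hψ, hP x hx, map_aeval_eq s s₀ (fun a => rfl), aeval_bind₁]
      refine aeval_sub_mem _ T.D_mem (fun i => hsA _ (T.τ_mem x i))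
        (fun i => aeval_mem (Φ i) (T.τ_mem (sX x))) (hΦ x hy)
    · refine ⟨0, fun y hy => ?_⟩
      obtain ⟨x, rfl⟩ := hsX y
      exact absurd ⟨x, hy⟩ hne

end Conj

section Transition

variable {X C C' : Type*} [MulAction G X] {g g' : ℕ} [Fintype X]
variable (T : Coords A G X C g) (T' : Coords A G X C' g')

/-- the coordinates `τ'` are, modulo `d • A`, polynomials over `A0` in the coordinates `τ` on every
fibre of `T` (label types may differ) -/
def Trans' (d : K) : Prop :=
  ∀ c₀ : C, ∃ Φ : Fin g' → MvPolynomial (Fin g) (fixedRing A G),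
    ∀ x, T.c x = c₀ → ∀ i, DvdA A d (T'.τ x i - aeval (T.τ x) (Φ i))

/-- **independence of the coordinates, general form**: if the partition of `T` refines that of `T'`
and `τ'` is analytic in `τ`, every `τ'`-analytic function is `τ`-analytic. -/
theorem order_le_of_trans' (hc : ∀ x y, T.c x = T.c y → T'.c x = T'.c y)
    (h : T.Trans' T' T.D) : T'.order ≤ T.order := by
  classical
  intro φ hφ
  refine T.mem_order_of_approx hφ.1 fun c₀ => ?_
  by_cases hne : ∃ x₀, T.c x₀ = c₀
  · obtain ⟨x₀, hx₀⟩ := hne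
    obtain ⟨Φ, hΦ⟩ := h c₀
    obtain ⟨P, hP⟩ := hφ.2 (T'.c x₀)
    refine ⟨bind₁ Φ P, fun x hx => ?_⟩
    rw [hP x (hc x x₀ (hx.trans hx₀.symm)), aeval_bind₁]
    exact aeval_sub_mem P T.D_mem (T'.τ_mem x) (fun i => aeval_mem (Φ i) (T.τ_mem x)) (hΦ x hx)
  · exact ⟨0, fun x hx => absurd ⟨x, hx⟩ hne⟩

theorem order_eq_of_trans' (hc : ∀ x y, T.c x = T.c y ↔ T'.c x = T'.c y)
    (h : T.Trans' T' T.D) (h' : T'.Trans' T T'.D) : T'.order = T.order :=
  le_antisymm (T.order_le_of_trans' T' (fun x y => (hc x y).1) h)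
    (T'.order_le_of_trans' T (fun x y => (hc x y).2) h')

end Transition

end Coords

end Fermat.Agent.S19lib.F
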