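/-
S19lib / F / Fin  (helper2)  — Project FF, block FF-F.

* `exists_fin_sum_of_mem_prodSpan` : an element of `H ⊗ H` (`prodSpan`) is a finite sum
  `∑ i, ψ i x * ψ' i y` with `ψ i, ψ' i ∈ H` (the shape of `HopfOrder.comul` in the interface);
* `exists_comul` : the comultiplication in that shape;
* `exists_pow_mul_mem_order` : fullness in the shape `∃ n, l ^ n • φ ∈ H` for every equivariant `φ`
  (input: every element of `K` is carried into `A` by a power of `l`).
-/
import Mathlib
import Fermat.Agent.S19lib.F.Hopf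

set_option autoImplicit false
set_option linter.unusedSectionVars false

noncomputable section

namespace Fermat.Agent.S19lib.F

open MvPolynomial

variable {K : Type*} [Field K] {A : ValuationSubring K}
variable {G : Type*} [Group G] [MulSemiringAction G K]

namespace Coords

section Fin

variable {X C : Type*} [MulAction G X] {g : ℕ}
variable (T : Coords A G X C g)

/-- finite sums of pure tensors of functions of the order -/
def IsFinSum (f : X × X → K) : Prop :=
  ∃ (n : ℕ) (ψ ψ' : Fin n → X → K), (∀ i, ψ i ∈ T.order) ∧ (∀ i, ψ' i ∈ T.order) ∧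
    ∀ x y : X, f (x, y) = ∑ i, ψ i x * ψ' i y

theorem isFinSum_zero : T.IsFinSum 0 :=
  ⟨0, fun i => Fin.elim0 i, fun i => Fin.elim0 i, fun i => Fin.elim0 i, fun i => Fin.elim0 i,
    fun x y => by rw [Finset.univ_eq_empty, Finset.sum_empty]; rfl⟩

theorem isFinSum_tmul {ψ₁ ψ₂ : X → K} (h₁ : ψ₁ ∈ T.order) (h₂ : ψ₂ ∈ T.order) :
    T.IsFinSum (tmul ψ₁ ψ₂) :=
  ⟨1, fun _ => ψ₁, fun _ => ψ₂, fun _ => h₁, fun _ => h₂, fun x y => by
    rw [Fin.sum_univ_one]; rfl⟩

theorem IsFinSum.add {f f' : X × X → K} (h : T.IsFinSum f) (h' : T.IsFinSum f') :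
    T.IsFinSum (f + f') := by
  obtain ⟨n, ψ, ψ', hψ, hψ', hf⟩ := h
  obtain ⟨m, χ, χ', hχ, hχ', hf'⟩ := h'
  refine ⟨n + m, Fin.addCases ψ χ, Fin.addCases ψ' χ', fun i => ?_, fun i => ?_, fun x y => ?_⟩
  · refine Fin.addCases (fun j => ?_) (fun j => ?_) i
    · simp only [Fin.addCases_left]; exact hψ j
    · simp only [Fin.addCases_right]; exact hχ j
  · refine Fin.addCases (fun j => ?_) (fun j => ?_) i
    · simp only [Fin.addCases_left]; exact hψ' j
    · simp only [Fin.addCases_right]; exact hχ' j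
  · rw [Fin.sum_univ_add]
    simp only [Fin.addCases_left, Fin.addCases_right]
    show f (x, y) + f' (x, y) = _
    rw [hf, hf']

theorem IsFinSum.smul {f : X × X → K} (h : T.IsFinSum f) (r : fixedRing A G) :
    T.IsFinSum (r • f) := by
  obtain ⟨n, ψ, ψ', hψ, hψ', hf⟩ := h
  refine ⟨n, fun i => r • ψ i, ψ', fun i => T.order.smul_mem (hψ i) r, hψ', fun x y => ?_⟩
  show r • f (x, y) = _
  rw [hf, Finset.smul_sum]
  refine Finset.sum_congr rfl fun i _ => ?_
  show r • (ψ i x * ψ' i y) = (r • ψ i x) * ψ' i y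
  rw [smul_mul_assoc]

/-- **elements of `H ⊗ H` are finite sums of pure tensors** -/
theorem exists_fin_sum_of_mem_prodSpan {f : X × X → K} (hf : f ∈ T.prodSpan) : T.IsFinSum f := by
  unfold prodSpan at hf
  induction hf using Submodule.span_induction with
  | mem f hf =>
    obtain ⟨ψ₁, h₁, ψ₂, h₂, rfl⟩ := hf
    exact T.isFinSum_tmul h₁ h₂
  | zero => exact T.isFinSum_zero
  | add f f' _ _ h h' => exact h.add T h'
  | smul r f _ h => exact h.smul T r

end Fin

section Group

variable {X C : Type*} [AddCommGroup X] [DistribMulAction G X] [AddCommGroup C] {g : ℕ}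
  [Fintype X]
variable (T : Coords A G X C g)

/-- **the comultiplication, in finite-sum form** -/
theorem exists_comul (hc : ∀ x y, T.c (x + y) = T.c x + T.c y)
    (hadd : T.AddApprox (T.D * T.D)) {φ : X → K} (hφ : φ ∈ T.order) :
    ∃ (n : ℕ) (ψ ψ' : Fin n → X → K), (∀ i, ψ i ∈ T.order) ∧ (∀ i, ψ' i ∈ T.order) ∧
      ∀ x y : X, φ (x + y) = ∑ i, ψ i x * ψ' i y :=
  T.exists_fin_sum_of_mem_prodSpan (T.comul_mem_prodSpan hc hadd hφ)

end Group

section Full

variable {X C : Type*} [MulAction G X] {g : ℕ} [Fintype X]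
variable (T : Coords A G X C g)

/-- **fullness, `l`-power form**: if every element of `K` is carried into `A` by a power of the
`G`-fixed element `l ∈ A`, every equivariant function is carried into the order by a power of `l`. -/
theorem exists_pow_mul_mem_order {l : K} (hlA : l ∈ A) (hlfix : ∀ σ : G, σ • l = l)
    (hl : ∀ a : K, ∃ n : ℕ, l ^ n * a ∈ A) {φ : X → K} (hφ : IsEquivariant G φ) :
    ∃ n : ℕ, (fun x => l ^ n * φ x) ∈ T.order := by
  classical
  choose n hn using fun x => hl (φ x)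
  obtain ⟨m, hm⟩ := hl T.D⁻¹
  let N : ℕ := Finset.univ.sup n
  have hpow : ∀ k : ℕ, l ^ k ∈ A := fun k => A.pow_mem hlA k
  have hN : ∀ x, l ^ N * φ x ∈ A := by
    intro x
    have hle : n x ≤ N := Finset.le_sup (Finset.mem_univ x)
    have : l ^ N * φ x = l ^ (N - n x) * (l ^ n x * φ x) := by
      rw [← mul_assoc, ← pow_add, Nat.sub_add_cancel hle]
    rw [this]
    exact A.mul_mem _ _ (hpow _) (hn x)
  refine ⟨m + N, ?_⟩
  have hpowfix : ∀ (k : ℕ) (σ : G), σ • l ^ k = l ^ k := fun k σ => by rw [smul_pow', hlfix]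
  have h := T.D_smul_mem_order (φ := fun x => l ^ m * T.D⁻¹ * (l ^ N * φ x)) (fun σ x => ?_)
    (fun x => A.mul_mem _ _ hm (hN x))
  · have hE : (fun x => T.D * (l ^ m * T.D⁻¹ * (l ^ N * φ x))) = fun x => l ^ (m + N) * φ x := by
      funext x
      rw [pow_add]
      field_simp [T.D_ne_zero]
    rwa [hE] at h
  · show l ^ m * T.D⁻¹ * (l ^ N * φ (σ • x)) = σ • (l ^ m * T.D⁻¹ * (l ^ N * φ x))
    rw [smul_mul', smul_mul', smul_mul', smul_inv'', T.smul_D, hpowfix, hpowfix, hφ]

end Full

end Coords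

end Fermat.Agent.S19lib.F
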