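/-
S19lib / F / ToIface  (helper2)  — Project FF, block FF-F.

Bridge from the abstract order (`Coords.order`) to the interface structure `HopfOrder` of
`S19lib/Iface.lean`, for `K = ℚ̄`, `G = I_A` acting on a Galois-stable finite subgroup `Γ ⊆ J`.

* `subAct`                : the action of a subgroup `U ≤ G_ℚ` on a Galois-stable `Γ`;
* `fixedRing_eq_A0`       : `fixedRing A I_A = A0 A` (as sets);
* `hopfOrderOf`           : the `HopfOrder A ℓ (A0 A) (IA A) Γ` attached to coordinates `T` with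
                            analytic group law (moduli `D²`, `D`);
* `hopfOrderOf_stableUnder` : its stability under `D_A`, from conjugation-analyticity.
-/
import Mathlib
import Fermat.Agent.S19lib.Iface
import Fermat.Agent.S19lib.F.Fin
import Fermat.Agent.S19lib.F.Conj
import Fermat.Agent.S19lib.F.LBound

set_option autoImplicit false
set_option linter.unusedSectionVars false

noncomputable section

namespace Fermat.Agent.S19lib.F

open Fermat.Agent.S19lib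

local notation "Qb" => AlgebraicClosure ℚ
local notation "GQ" => (AlgebraicClosure ℚ ≃ₐ[ℚ] AlgebraicClosure ℚ)

/-! ### the decomposition group preserves `A`; inertia is normal in it -/

theorem smul_mem_of_mem_DA {A : ValuationSubring Qb} {σ : GQ} (hσ : σ ∈ DA A) {a : Qb}
    (ha : a ∈ A) : σ a ∈ A := by
  have h := (A.subMulAction ℚ).smul_mem' (⟨σ, hσ⟩ : A.decompositionSubgroup ℚ) (x := a) ha
  exact h

theorem IA_le_DA (A : ValuationSubring Qb) : IA A ≤ DA A := by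
  rintro _ ⟨τ, _, rfl⟩
  exact τ.2

theorem conj_mem_IA {A : ValuationSubring Qb} {σ τ : GQ} (hσ : σ ∈ DA A) (hτ : τ ∈ IA A) :
    σ⁻¹ * τ * σ ∈ IA A := by
  obtain ⟨τ', hτ', rfl⟩ := hτ
  have hn : (A.inertiaSubgroup ℚ).Normal := by
    unfold ValuationSubring.inertiaSubgroup
    exact MonoidHom.normal_ker _
  have h := hn.conj_mem τ' hτ' (⟨σ, hσ⟩ : A.decompositionSubgroup ℚ)⁻¹
  refine ⟨_, h, ?_⟩
  simp

/-! ### actions -/

section Act

variable {J : Type} [AddCommGroup J] [DistribMulAction GQ J]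

/-- the action of a subgroup of `G_ℚ` on a Galois-stable subgroup of `J` -/
@[reducible] def subAct (Γ : AddSubgroup J) (hst : ∀ σ : GQ, ∀ x ∈ Γ, σ • x ∈ Γ) (U : Subgroup GQ) :
    DistribMulAction U Γ where
  smul σ x := ⟨(σ : GQ) • (x : J), hst σ x x.2⟩
  one_smul x := Subtype.ext (one_smul GQ (x : J))
  mul_smul σ τ x := Subtype.ext (mul_smul (σ : GQ) (τ : GQ) (x : J))
  smul_zero σ := Subtype.ext (smul_zero (σ : GQ))
  smul_add σ x y := Subtype.ext (smul_add (σ : GQ) (x : J) (y : J))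

theorem coe_subAct_smul (Γ : AddSubgroup J) (hst : ∀ σ : GQ, ∀ x ∈ Γ, σ • x ∈ Γ) (U : Subgroup GQ)
    (σ : U) (x : Γ) :
    (((subAct Γ hst U).toMulAction.toSMul.smul σ x : Γ) : J) = (σ : GQ) • (x : J) := rfl

/-- the translation by an element of `G_ℚ` on a Galois-stable subgroup -/
def galMap (Γ : AddSubgroup J) (hst : ∀ σ : GQ, ∀ x ∈ Γ, σ • x ∈ Γ) (σ : GQ) : Γ → Γ :=
  fun x => ⟨σ • (x : J), hst σ x x.2⟩

theorem galMap_surjective (Γ : AddSubgroup J) (hst : ∀ σ : GQ, ∀ x ∈ Γ, σ • x ∈ Γ) (σ : GQ) :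
    Function.Surjective (galMap Γ hst σ) := fun y =>
  ⟨galMap Γ hst σ⁻¹ y, Subtype.ext (by show σ • σ⁻¹ • (y : J) = y; rw [smul_inv_smul])⟩

end Act

/-! ### `A0` -/

theorem mem_fixedRing_iff_mem_A0 (A : ValuationSubring Qb) (a : Qb) :
    a ∈ fixedRing A (IA A) ↔ a ∈ A0 A := by
  constructor
  · rintro ⟨ha, h⟩
    exact ⟨ha, fun σ hσ => h ⟨σ, hσ⟩⟩
  · rintro ⟨ha, h⟩
    exact ⟨ha, fun σ => h σ.1 σ.2⟩

theorem fixedRing_eq_A0 (A : ValuationSubring Qb) : fixedRing A (IA A) = A0 A :=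
  Subring.ext (mem_fixedRing_iff_mem_A0 A)

/-! ### the Hopf order -/

section Order

variable (A : ValuationSubring Qb) (ℓ : ℕ) {J : Type} [AddCommGroup J] [DistribMulAction GQ J]
  (Γ : AddSubgroup J) [Fintype Γ] [DistribMulAction (IA A) Γ] {C : Type*} [AddCommGroup C] {g : ℕ}
  (T : Coords A (IA A) Γ C g)

/-- **the Hopf order of `A0`-analytic functions**, in the interface shape.  Inputs: the action on
`Γ` is the restricted one (`hact`), `ℓ ∈ A` and every element of `ℚ̄` is carried into `A` by a power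
of `ℓ` (`hl`), the fibre map is additive, the group law is analytic modulo `D²` resp. `D`. -/
def hopfOrderOf (hact : ∀ (σ : IA A) (x : Γ), ((σ • x : Γ) : J) = (σ : GQ) • (x : J))
    (hℓA : ((ℓ : ℕ) : Qb) ∈ A) (hl : ∀ a : Qb, ∃ n : ℕ, ((ℓ : ℕ) : Qb) ^ n * a ∈ A)
    (hc : ∀ x y, T.c (x + y) = T.c x + T.c y)
    (hadd : T.AddApprox (T.D * T.D)) (hneg : T.NegApprox T.D) :
    HopfOrder A ℓ (A0 A) (IA A) Γ where
  H := {φ | φ ∈ T.order}
  one_mem := T.order.one_mem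
  add_mem φ hφ ψ hψ := T.order.add_mem hφ hψ
  mul_mem φ hφ ψ hψ := T.order.mul_mem hφ hψ
  smul_mem r hr φ hφ :=
    T.order.smul_mem hφ (⟨r, (mem_fixedRing_iff_mem_A0 A r).2 hr⟩ : fixedRing A (IA A))
  equivariant φ hφ σ hσ x y hxy := by
    have h := hφ.1 ⟨σ, hσ⟩ x
    have hy : y = (⟨σ, hσ⟩ : IA A) • x := Subtype.ext (by rw [hxy, hact])
    rw [hy, h]
    rfl
  integral φ hφ := T.isIntegralValued_of_mem hφ
  full φ hφ := by
    refine T.exists_pow_mul_mem_order hℓA (fun σ => ?_) hl (fun σ x => ?_)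
    · show (σ : GQ) ((ℓ : ℕ) : Qb) = _
      exact map_natCast (σ : GQ) ℓ
    · exact hφ σ.1 σ.2 x (σ • x) (hact σ x)
  comul φ hφ := T.exists_comul hc hadd hφ
  antipode φ hφ := by
    have hc0 : T.c 0 = 0 := by
      have h := hc 0 0
      rw [add_zero] at h
      exact left_eq_add.mp h
    refine T.antipode_mem_order (fun x => ?_) hneg hφ
    have h := hc x (-x)
    rw [add_neg_cancel, hc0] at h
    exact (neg_eq_of_add_eq_zero_right h.symm).symm

theorem mem_hopfOrderOf_iff (hact : ∀ (σ : IA A) (x : Γ), ((σ • x : Γ) : J) = (σ : GQ) • (x : J))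
    (hℓA : ((ℓ : ℕ) : Qb) ∈ A) (hl : ∀ a : Qb, ∃ n : ℕ, ((ℓ : ℕ) : Qb) ^ n * a ∈ A)
    (hc : ∀ x y, T.c (x + y) = T.c x + T.c y)
    (hadd : T.AddApprox (T.D * T.D)) (hneg : T.NegApprox T.D) (φ : Γ → Qb) :
    φ ∈ (hopfOrderOf A ℓ Γ T hact hℓA hl hc hadd hneg).H ↔ φ ∈ T.order := Iff.rfl

/-- **stability under the decomposition group** -/
theorem hopfOrderOf_stableUnder
    (hact : ∀ (σ : IA A) (x : Γ), ((σ • x : Γ) : J) = (σ : GQ) • (x : J))
    (hℓA : ((ℓ : ℕ) : Qb) ∈ A) (hl : ∀ a : Qb, ∃ n : ℕ, ((ℓ : ℕ) : Qb) ^ n * a ∈ A)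
    (hc : ∀ x y, T.c (x + y) = T.c x + T.c y)
    (hadd : T.AddApprox (T.D * T.D)) (hneg : T.NegApprox T.D)
    (hst : ∀ σ : GQ, ∀ x ∈ Γ, σ • x ∈ Γ)
    (hfib : ∀ σ ∈ DA A, ∀ x y : Γ, T.c (galMap Γ hst σ x) = T.c (galMap Γ hst σ y) → T.c x = T.c y)
    (hconj : ∀ σ ∈ DA A, T.ConjApprox (σ : Qb →+* Qb) (galMap Γ hst σ) T.D) :
    (hopfOrderOf A ℓ Γ T hact hℓA hl hc hadd hneg).StableUnder (DA A) := by
  intro σ hσ φ hφ ψ hψ
  let ν : IA A → IA A := fun τ => ⟨σ⁻¹ * τ.1 * σ, conj_mem_IA hσ τ.2⟩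
  refine T.conj_mem_order (σ : Qb →+* Qb) (fun a ha => smul_mem_of_mem_DA hσ ha) ν
    (fun τ a => ?_) (galMap Γ hst σ) (galMap_surjective Γ hst σ) (fun τ x => ?_)
    (hfib σ hσ) (hconj σ hσ) hφ (fun x => hψ x (galMap Γ hst σ x) rfl)
  · show (τ : GQ) (σ a) = σ ((σ⁻¹ * τ.1 * σ) a)
    simp [AlgEquiv.mul_apply]
  · refine Subtype.ext ?_
    rw [hact]
    show (τ : GQ) • σ • (x : J) = σ • ((ν τ • x : Γ) : J)
    rw [hact]
    show (τ : GQ) • σ • (x : J) = σ • (σ⁻¹ * τ.1 * σ) • (x : J)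
    rw [mul_smul, mul_smul, smul_inv_smul]

/-- **FF-F, final form**: coordinates with analytic group law and analytic conjugation give a Hopf
order over `A0`, stable under the decomposition group. -/
theorem exists_hopfOrder [Fact ℓ.Prime] (hA : A.LiesOverPrime ℓ)
    (hact : ∀ (σ : IA A) (x : Γ), ((σ • x : Γ) : J) = (σ : GQ) • (x : J))
    (hc : ∀ x y, T.c (x + y) = T.c x + T.c y)
    (hadd : T.AddApprox (T.D * T.D)) (hneg : T.NegApprox T.D)
    (hst : ∀ σ : GQ, ∀ x ∈ Γ, σ • x ∈ Γ)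
    (hfib : ∀ σ ∈ DA A, ∀ x y : Γ, T.c (galMap Γ hst σ x) = T.c (galMap Γ hst σ y) → T.c x = T.c y)
    (hconj : ∀ σ ∈ DA A, T.ConjApprox (σ : Qb →+* Qb) (galMap Γ hst σ) T.D) :
    ∃ O : HopfOrder A ℓ (A0 A) (IA A) Γ, O.StableUnder (DA A) := by
  have hℓ : ℓ.Prime := Fact.out
  have hℓA : ((ℓ : ℕ) : Qb) ∈ A :=
    (A.valuation_le_one_iff _).1 (le_of_lt ((A.mem_nonunits_iff).1 hA))
  have : Algebra.IsAlgebraic ℚ Qb := AlgebraicClosure.isAlgebraic ℚ
  have hl : ∀ a : Qb, ∃ n : ℕ, ((ℓ : ℕ) : Qb) ^ n * a ∈ A := exists_pow_mul_mem A hℓ hA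
  exact ⟨hopfOrderOf A ℓ Γ T hact hℓA hl hc hadd hneg,
    hopfOrderOf_stableUnder A ℓ Γ T hact hℓA hl hc hadd hneg hst hfib hconj⟩

end Order

end Fermat.Agent.S19lib.F
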