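/-
S19lib / F / Bridge  (helper2)  — Project FF, block FF-F.

The converter from the analyticity notion of the interface (`A0Analytic`: approximation modulo
`(ℓ, u)^M` for every `M`) to the congruences `DvdA A d (f u - P(u))` used by `Coords.AddApprox`,
`NegApprox`, `ConjApprox`, `Trans'`: for a FINITE set `U` of points of `𝔪_A^ι` and `d ≠ 0` a single
polynomial over `A0` approximates `f` modulo `d • A` at all points of `U` (rank one).
-/
import Mathlib
import Fermat.Agent.S19lib.Iface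
import Fermat.Agent.S19lib.F.RankOne
import Fermat.Agent.S19lib.F.ToIface

set_option autoImplicit false
set_option linter.unusedSectionVars false

noncomputable section

namespace Fermat.Agent.S19lib.F

open Fermat.Agent.S19lib MvPolynomial

local notation "Qb" => AlgebraicClosure ℚ
local notation "GQ" => (AlgebraicClosure ℚ ≃ₐ[ℚ] AlgebraicClosure ℚ)

variable (A : ValuationSubring Qb) (ℓ : ℕ) [Fact ℓ.Prime]

/-- at a point `u ∈ 𝔪_A^ι` (`ι` finite), smallness of high order implies divisibility by `d` -/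
theorem exists_order_dvdA (hA : A.LiesOverPrime ℓ) {ι : Type} [Finite ι] {u : ι → Qb}
    (hu : ∀ i, u i ∈ mSet A) {d : Qb} (hd : d ≠ 0) :
    ∃ M : ℕ, ∀ M' : ℕ, M ≤ M' → ∀ x : Qb, SmallTo A ℓ u M' x → DvdA A d x := by
  have hℓ : ℓ.Prime := Fact.out
  have : Algebra.IsAlgebraic ℚ Qb := AlgebraicClosure.isAlgebraic ℚ
  let w : Option ι → Qb := fun o => o.elim ((ℓ : ℕ) : Qb) u
  have hw : ∀ o, w o ∈ A.nonunits := by
    intro o
    cases o with
    | none => exact hA
    | some i => exact (A.mem_nonunits_iff).2 (hu i)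
  obtain ⟨o₀, ho₀⟩ := Finite.exists_max (fun o => A.valuation (w o))
  obtain ⟨n, hn⟩ := exists_pow_le A hℓ hA (hw o₀) hd
  have hc1 : A.valuation (w o₀) ≤ 1 := le_of_lt ((A.mem_nonunits_iff).1 (hw o₀))
  refine ⟨n, fun M' hM' x hx => ?_⟩
  have h1 : A.valuation x ≤ A.valuation (w o₀) ^ M' :=
    hx (A.valuation (w o₀)) (ho₀ none) (fun i => ho₀ (some i))
  have h2 : A.valuation x ≤ A.valuation d :=
    h1.trans ((pow_le_pow_right_of_le_one' hc1 hM').trans hn)
  refine dvdA_of_mem hd ?_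
  rw [← A.valuation_le_one_iff, map_div₀]
  have hd0 : A.valuation d ≠ 0 := (A.valuation.ne_zero_iff).2 hd
  exact (div_le_one₀ (zero_lt_iff.mpr hd0)).2 h2

/-- the same, uniformly on a finite set of points -/
theorem exists_order_dvdA_finset (hA : A.LiesOverPrime ℓ) {ι : Type} [Finite ι]
    (U : Finset (ι → Qb)) (hU : ∀ u ∈ U, ∀ i, u i ∈ mSet A) {d : Qb} (hd : d ≠ 0) :
    ∃ M : ℕ, ∀ u ∈ U, ∀ x : Qb, SmallTo A ℓ u M x → DvdA A d x := by
  classical
  induction U using Finset.induction_on with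
  | empty => exact ⟨0, fun u hu => absurd hu (Finset.notMem_empty u)⟩
  | insert u₀ U _ ih =>
    obtain ⟨M₁, hM₁⟩ := ih fun u hu => hU u (Finset.mem_insert_of_mem hu)
    obtain ⟨M₀, hM₀⟩ := exists_order_dvdA A ℓ hA (hU u₀ (Finset.mem_insert_self u₀ U)) hd
    refine ⟨max M₀ M₁, fun u hu x hx => ?_⟩
    rcases Finset.mem_insert.1 hu with rfl | hu'
    · exact hM₀ _ (le_max_left _ _) x hx
    · refine hM₁ u hu' x fun c hc hcu => ?_
      have hc1 : c ≤ 1 ∨ 1 < c := le_or_gt c 1
      rcases hc1 with hc1 | hc1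
      · exact (hx c hc hcu).trans (pow_le_pow_right_of_le_one' hc1 (le_max_right _ _))
      · -- `c > 1`: use `c' = 1` instead
        have h1 := hx 1 (le_of_lt ((A.mem_nonunits_iff).1 hA))
          (fun i => le_of_lt (hU u (Finset.mem_insert_of_mem hu') i))
        rw [one_pow] at h1
        exact h1.trans (one_le_pow₀ (le_of_lt hc1))

/-- **the converter**: an `A0`-analytic function is, at finitely many points of `𝔪_A^ι` and modulo
any `d ≠ 0`, a polynomial with coefficients in `A0 = fixedRing A I_A`. -/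
theorem exists_approx_of_a0Analytic (hA : A.LiesOverPrime ℓ) {ι : Type} [Finite ι]
    {f : (ι → Qb) → Qb} (hf : A0Analytic A ℓ f) (U : Finset (ι → Qb))
    (hU : ∀ u ∈ U, ∀ i, u i ∈ mSet A) {d : Qb} (hd : d ≠ 0) :
    ∃ P : MvPolynomial ι (fixedRing A (IA A)), ∀ u ∈ U, DvdA A d (f u - aeval u P) := by
  obtain ⟨M, hM⟩ := exists_order_dvdA_finset A ℓ hA U hU hd
  obtain ⟨P, hPc, hP⟩ := hf M
  have hmem : P ∈ coeffSubring (fixedRing A (IA A)) ι :=
    mem_coeffSubring_iff.2 fun m => (mem_fixedRing_iff_mem_A0 A _).2 (hPc m)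
  obtain ⟨Q, hQ⟩ := exists_typed_of_mem hmem
  refine ⟨Q, fun u hu => ?_⟩
  rw [aeval_typed, hQ]
  exact hM u hu _ (hP u (hU u hu))

end Fermat.Agent.S19lib.F
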