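/-
S19lib / F / JLevel  (helper2)  — Project FF, block FF-F.

`J`-level forms of the main theorem of FF-F (all subtype actions are hidden here):

* `hopfOrder_of_coords`   : fibres `c : J →+ C`, coordinates `τ : J → Fin g → ℚ̄` with the group law,
  the negation and the `D_A`-conjugation polynomial over `A0` modulo every `d ≠ 0` of `A0`, on `Γ`
  ⇒ a Hopf order over `A0` in `Map_I(Γ, ℚ̄)` stable under `D_A`;
* `hopfOrder_of_analytic` : the same with the three inputs in the interface form (`A0Analytic`).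
-/
import Mathlib
import Fermat.Agent.S19lib.Iface
import Fermat.Agent.S19lib.F.ToIface
import Fermat.Agent.S19lib.F.Bridge

set_option autoImplicit false
set_option linter.unusedSectionVars false

noncomputable section

namespace Fermat.Agent.S19lib.F

open Fermat.Agent.S19lib MvPolynomial

local notation "Qb" => AlgebraicClosure ℚ
local notation "GQ" => (AlgebraicClosure ℚ ≃ₐ[ℚ] AlgebraicClosure ℚ)

/-- a polynomial over `ℚ̄` with coefficients in `A0`, typed over `fixedRing A I_A` -/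
theorem exists_typed_of_coeff_mem_A0 (A : ValuationSubring Qb) {ι : Type*}
    (P : MvPolynomial ι Qb) (hP : ∀ m, P.coeff m ∈ A0 A) :
    ∃ Q : MvPolynomial ι (fixedRing A (IA A)), ∀ v : ι → Qb, aeval v Q = eval v P := by
  have hmem : P ∈ coeffSubring (fixedRing A (IA A)) ι :=
    mem_coeffSubring_iff.2 fun m => (mem_fixedRing_iff_mem_A0 A _).2 (hP m)
  obtain ⟨Q, hQ⟩ := exists_typed_of_mem hmem
  exact ⟨Q, fun v => by rw [aeval_typed, hQ]⟩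

section

variable {ℓ : ℕ} [Fact ℓ.Prime] (A : ValuationSubring Qb) (hA : A.LiesOverPrime ℓ)
  {J : Type} [AddCommGroup J] [DistribMulAction GQ J] (Γ : AddSubgroup J)
  (hΓ : IsFiniteGaloisSubmodule Γ) {C : Type*} [AddCommGroup C] {g : ℕ}
  (c : J →+ C) (τ : J → Fin g → Qb)

/-- the coordinates on `Γ` attached to `J`-level data -/
def coordsOf (hst : ∀ σ : GQ, ∀ x ∈ Γ, σ • x ∈ Γ)
    (c_smul : ∀ σ ∈ IA A, ∀ x, c (σ • x) = c x)
    (τ_smul : ∀ σ ∈ IA A, ∀ x i, τ (σ • x) i = σ (τ x i))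
    (τ_mem : ∀ x i, τ x i ∈ A)
    (τ_inj : ∀ x y, c x = c y → τ x = τ y → x = y) :
    @Coords Qb _ A (IA A) _ _ Γ C (subAct Γ hst (IA A)).toMulAction g :=
  letI := subAct Γ hst (IA A)
  { c := fun x => c (x : J)
    c_smul := fun σ x => c_smul σ.1 σ.2 (x : J)
    τ := fun x => τ (x : J)
    τ_smul := fun σ x i => τ_smul σ.1 σ.2 (x : J) i
    τ_mem := fun x i => τ_mem (x : J) i
    τ_inj := fun x y h1 h2 => Subtype.ext (τ_inj (x : J) (y : J) h1 h2) }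

include hA hΓ in
/-- **FF-F, `J`-level form** (inputs modulo every `d ≠ 0` of `A0`) -/
theorem hopfOrder_of_coords
    (c_smul : ∀ σ ∈ IA A, ∀ x, c (σ • x) = c x)
    (c_conj : ∀ σ ∈ DA A, ∀ x y, c x = c y → c (σ • x) = c (σ • y))
    (τ_smul : ∀ σ ∈ IA A, ∀ x i, τ (σ • x) i = σ (τ x i))
    (τ_mem : ∀ x i, τ x i ∈ A)
    (τ_inj : ∀ x y, c x = c y → τ x = τ y → x = y)
    (hadd : ∀ d ∈ A0 A, d ≠ 0 → ∀ c₁ c₂ : C, ∃ Φ : Fin g → MvPolynomial (Fin g ⊕ Fin g) Qb,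
      (∀ i m, (Φ i).coeff m ∈ A0 A) ∧ ∀ x ∈ Γ, ∀ x' ∈ Γ, c x = c₁ → c x' = c₂ → ∀ i, ∃ a ∈ A,
        τ (x + x') i - MvPolynomial.eval (Sum.elim (τ x) (τ x')) (Φ i) = d * a)
    (hneg : ∀ d ∈ A0 A, d ≠ 0 → ∀ c₁ : C, ∃ Φ : Fin g → MvPolynomial (Fin g) Qb,
      (∀ i m, (Φ i).coeff m ∈ A0 A) ∧ ∀ x ∈ Γ, c x = c₁ → ∀ i, ∃ a ∈ A,
        τ (-x) i - MvPolynomial.eval (τ x) (Φ i) = d * a)
    (hconj : ∀ σ ∈ DA A, ∀ d ∈ A0 A, d ≠ 0 → ∀ c₁ : C, ∃ Φ : Fin g → MvPolynomial (Fin g) Qb,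
      (∀ i m, (Φ i).coeff m ∈ A0 A) ∧ ∀ x ∈ Γ, c x = c₁ → ∀ i, ∃ a ∈ A,
        σ (τ (σ⁻¹ • x) i) - MvPolynomial.eval (τ x) (Φ i) = d * a) :
    ∃ O : HopfOrder A ℓ (A0 A) (IA A) Γ, O.StableUnder (DA A) := by
  classical
  haveI := hΓ.finite
  letI : Fintype Γ := Fintype.ofFinite Γ
  letI := subAct Γ hΓ.stable (IA A)
  let T : Coords A (IA A) Γ C g := coordsOf A Γ c τ hΓ.stable c_smul τ_smul τ_mem τ_inj
  have hD : T.D ∈ A0 A := (mem_fixedRing_iff_mem_A0 A _).1 T.D_mem_fixedRing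
  have hDD : T.D * T.D ∈ A0 A := (A0 A).mul_mem hD hD
  have hDD0 : T.D * T.D ≠ 0 := mul_ne_zero T.D_ne_zero T.D_ne_zero
  refine exists_hopfOrder A ℓ Γ T hA (fun _ _ => rfl) (fun x y => map_add c (x : J) (y : J))
    ?_ ?_ hΓ.stable ?_ ?_
  · -- the group law
    intro c₁ c₂
    obtain ⟨Φ, hΦc, hΦ⟩ := hadd _ hDD hDD0 c₁ c₂
    choose Q hQ using fun i => exists_typed_of_coeff_mem_A0 A (Φ i) (hΦc i)
    refine ⟨Q, fun x x' hx hx' i => ?_⟩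
    obtain ⟨a, ha, h⟩ := hΦ (x : J) x.2 (x' : J) x'.2 hx hx' i
    refine ⟨a, ha, ?_⟩
    rw [hQ]
    exact h
  · -- the negation
    intro c₁
    obtain ⟨Φ, hΦc, hΦ⟩ := hneg _ hD T.D_ne_zero c₁
    choose Q hQ using fun i => exists_typed_of_coeff_mem_A0 A (Φ i) (hΦc i)
    refine ⟨Q, fun x hx i => ?_⟩
    obtain ⟨a, ha, h⟩ := hΦ (x : J) x.2 hx i
    refine ⟨a, ha, ?_⟩
    rw [hQ]
    exact h
  · -- the decomposition group permutes the fibres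
    intro σ hσ x y hxy
    have h := c_conj σ⁻¹ ((DA A).inv_mem hσ) _ _ hxy
    simpa [galMap, T, coordsOf] using h
  · -- the conjugation
    intro σ hσ c₁
    obtain ⟨Φ, hΦc, hΦ⟩ := hconj σ hσ _ hD T.D_ne_zero c₁
    choose Q hQ using fun i => exists_typed_of_coeff_mem_A0 A (Φ i) (hΦc i)
    refine ⟨Q, fun x hx i => ?_⟩
    obtain ⟨a, ha, h⟩ := hΦ (σ • (x : J)) (hΓ.stable σ _ x.2) hx i
    refine ⟨a, ha, ?_⟩
    rw [hQ]
    rw [inv_smul_smul] at h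
    exact h

include hA hΓ in
/-- **FF-F, `J`-level form, analytic inputs** (interface notion `A0Analytic`) -/
theorem hopfOrder_of_analytic
    (c_smul : ∀ σ ∈ IA A, ∀ x, c (σ • x) = c x)
    (c_conj : ∀ σ ∈ DA A, ∀ x y, c x = c y → c (σ • x) = c (σ • y))
    (τ_smul : ∀ σ ∈ IA A, ∀ x i, τ (σ • x) i = σ (τ x i))
    (τ_mem : ∀ x i, τ x i ∈ mSet A)
    (τ_inj : ∀ x y, c x = c y → τ x = τ y → x = y)
    (hadd : ∀ c₁ c₂ : C, ∃ F : (Fin g ⊕ Fin g → Qb) → Fin g → Qb,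
      (∀ i, A0Analytic A ℓ (fun w => F w i)) ∧
        ∀ x ∈ Γ, ∀ x' ∈ Γ, c x = c₁ → c x' = c₂ → τ (x + x') = F (Sum.elim (τ x) (τ x')))
    (hneg : ∀ c₁ : C, ∃ F : (Fin g → Qb) → Fin g → Qb,
      (∀ i, A0Analytic A ℓ (fun u => F u i)) ∧ ∀ x ∈ Γ, c x = c₁ → τ (-x) = F (τ x))
    (hconj : ∀ σ ∈ DA A, ∀ c₁ : C, ∃ F : (Fin g → Qb) → Fin g → Qb,
      (∀ i, A0Analytic A ℓ (fun u => F u i)) ∧
        ∀ x ∈ Γ, c x = c₁ → (fun i => σ (τ (σ⁻¹ • x) i)) = F (τ x)) :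
    ∃ O : HopfOrder A ℓ (A0 A) (IA A) Γ, O.StableUnder (DA A) := by
  classical
  haveI := hΓ.finite
  letI : Fintype Γ := Fintype.ofFinite Γ
  have τ_memA : ∀ x i, τ x i ∈ A := fun x i =>
    (A.valuation_le_one_iff _).1 (le_of_lt (τ_mem x i))
  let U₁ : Finset (Fin g → Qb) := Finset.univ.image fun x : Γ => τ (x : J)
  let U₂ : Finset (Fin g ⊕ Fin g → Qb) :=
    Finset.univ.image fun p : Γ × Γ => Sum.elim (τ (p.1 : J)) (τ (p.2 : J))
  have hU₁ : ∀ u ∈ U₁, ∀ i, u i ∈ mSet A := by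
    intro u hu i
    obtain ⟨x, -, rfl⟩ := Finset.mem_image.1 hu
    exact τ_mem _ i
  have hU₂ : ∀ u ∈ U₂, ∀ i, u i ∈ mSet A := by
    intro u hu i
    obtain ⟨p, -, rfl⟩ := Finset.mem_image.1 hu
    cases i with
    | inl i => exact τ_mem _ i
    | inr i => exact τ_mem _ i
  have hmem₁ : ∀ x ∈ Γ, τ x ∈ U₁ := fun x hx =>
    Finset.mem_image.2 ⟨⟨x, hx⟩, Finset.mem_univ _, rfl⟩
  have hmem₂ : ∀ x ∈ Γ, ∀ x' ∈ Γ, Sum.elim (τ x) (τ x') ∈ U₂ := fun x hx x' hx' =>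
    Finset.mem_image.2 ⟨(⟨x, hx⟩, ⟨x', hx'⟩), Finset.mem_univ _, rfl⟩
  refine hopfOrder_of_coords A hA Γ hΓ c τ c_smul c_conj τ_smul τ_memA τ_inj ?_ ?_ ?_
  · intro d _ hd c₁ c₂
    obtain ⟨F, hF, hFτ⟩ := hadd c₁ c₂
    choose P hP using fun i => exists_approx_of_a0Analytic A ℓ hA (hF i) U₂ hU₂ hd
    refine ⟨fun i => MvPolynomial.map (fixedRing A (IA A)).subtype (P i), fun i m => ?_,
      fun x hx x' hx' h1 h2 i => ?_⟩
    · rw [coeff_map]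
      exact (mem_fixedRing_iff_mem_A0 A _).1 ((P i).coeff m).2
    · obtain ⟨a, ha, h⟩ := hP i _ (hmem₂ x hx x' hx')
      refine ⟨a, ha, ?_⟩
      rw [hFτ x hx x' hx' h1 h2, ← aeval_typed]
      exact h
  · intro d _ hd c₁
    obtain ⟨F, hF, hFτ⟩ := hneg c₁
    choose P hP using fun i => exists_approx_of_a0Analytic A ℓ hA (hF i) U₁ hU₁ hd
    refine ⟨fun i => MvPolynomial.map (fixedRing A (IA A)).subtype (P i), fun i m => ?_,
      fun x hx h1 i => ?_⟩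
    · rw [coeff_map]
      exact (mem_fixedRing_iff_mem_A0 A _).1 ((P i).coeff m).2
    · obtain ⟨a, ha, h⟩ := hP i _ (hmem₁ x hx)
      refine ⟨a, ha, ?_⟩
      rw [hFτ x hx h1, ← aeval_typed]
      exact h
  · intro σ hσ d _ hd c₁
    obtain ⟨F, hF, hFτ⟩ := hconj σ hσ c₁
    choose P hP using fun i => exists_approx_of_a0Analytic A ℓ hA (hF i) U₁ hU₁ hd
    refine ⟨fun i => MvPolynomial.map (fixedRing A (IA A)).subtype (P i), fun i m => ?_,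
      fun x hx h1 i => ?_⟩
    · rw [coeff_map]
      exact (mem_fixedRing_iff_mem_A0 A _).1 ((P i).coeff m).2
    · obtain ⟨a, ha, h⟩ := hP i _ (hmem₁ x hx)
      refine ⟨a, ha, ?_⟩
      have h3 : σ (τ (σ⁻¹ • x) i) = F (τ x) i := congrFun (hFτ x hx h1) i
      rw [h3, ← aeval_typed]
      exact h

end

end Fermat.Agent.S19lib.F
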